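import Fermat.Agent.H02_P8
import Fermat.Agent.H01.Finite

set_option autoImplicit false

/-!
# Congruence subgroups containing `T` (and `-1`)
-/

noncomputable section

open UpperHalfPlane hiding I
open ModularForm Filter Complex Topology Function CongruenceSubgroup
open scoped MatrixGroups Manifold Real

namespace Fermat.Agent.H02G

/-- `Γ` is a congruence subgroup containing `T`. -/
class IsLevel (Γ : Subgroup SL(2, ℤ)) : Prop where
  exists_level : ∃ N : ℕ, N ≠ 0 ∧ CongruenceSubgroup.Gamma N ≤ Γ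
  T_mem : ModularGroup.T ∈ Γ

/-- `Γ` is a congruence subgroup containing `T` and `-1`. -/
class IsCong (Γ : Subgroup SL(2, ℤ)) : Prop extends IsLevel Γ where
  neg_mem : -1 ∈ Γ

instance isCong_Gamma0 (N : ℕ) [NeZero N] : IsCong (Gamma0 N) where
  exists_level := ⟨N, NeZero.ne N, by
    intro γ hγ
    rw [Gamma_mem] at hγ
    rw [Gamma0_mem]
    exact hγ.2.2.1⟩
  T_mem := by rw [Gamma0_mem, ModularGroup.coe_T]; simp
  neg_mem := by rw [Gamma0_mem]; simp

instance isCong_top : IsCong (⊤ : Subgroup SL(2, ℤ)) where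
  exists_level := ⟨1, one_ne_zero, le_top⟩
  T_mem := trivial
  neg_mem := trivial

section level

variable (Γ : Subgroup SL(2, ℤ)) [IsLevel Γ]

/-- A level of `Γ`. -/
def lev : ℕ := (IsLevel.exists_level (Γ := Γ)).choose

instance neZero_lev : NeZero (lev Γ) := ⟨(IsLevel.exists_level (Γ := Γ)).choose_spec.1⟩

lemma lev_pos : 0 < lev Γ := NeZero.pos _

lemma gamma_lev_le : CongruenceSubgroup.Gamma (lev Γ) ≤ Γ :=
  (IsLevel.exists_level (Γ := Γ)).choose_spec.2

instance finiteIndex : Γ.FiniteIndex := Subgroup.finiteIndex_of_le (gamma_lev_le Γ)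

instance finite_quot : Finite (SL(2, ℤ) ⧸ Γ) := Subgroup.finite_quotient_of_finiteIndex

lemma T_zpow_mem (n : ℤ) : (ModularGroup.T ^ n : SL(2, ℤ)) ∈ Γ :=
  zpow_mem IsLevel.T_mem n

lemma conj_T_mem (δ : SL(2, ℤ)) : δ * ModularGroup.T ^ (lev Γ : ℤ) * δ⁻¹ ∈ Γ := by
  have h1 : (ModularGroup.T ^ (lev Γ : ℤ)) ∈ CongruenceSubgroup.Gamma (lev Γ) := by
    simpa using ModularGroup_T_pow_mem_Gamma (lev Γ : ℤ) (lev Γ : ℤ) dvd_rfl
  exact gamma_lev_le Γ ((Gamma_normal (lev Γ)).conj_mem _ h1 δ)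

lemma one_mem_strictPeriods :
    (1 : ℝ) ∈ (Γ.map (Matrix.SpecialLinearGroup.mapGL ℝ)).strictPeriods := by
  rw [Subgroup.mem_strictPeriods_iff]
  refine ⟨ModularGroup.T, IsLevel.T_mem, ?_⟩
  ext i j
  fin_cases i <;> fin_cases j <;>
    simp [ModularGroup.T, Matrix.GeneralLinearGroup.upperRightHom]

end level

end Fermat.Agent.H02G
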