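import Fermat.Agent.H02G.FnOrd

/-!
# Orders at cusps
-/

set_option autoImplicit false

namespace Fermat.Agent.H02G

open UpperHalfPlane Filter Topology ModularForm CongruenceSubgroup
open scoped Manifold MatrixGroups ModularForm

open Fermat.Agent.H01 (qLf NiceAt cuspOrd slash_T_zpow slash_ne_zero
  periodic_comp_ofComplex_of_vadd)

lemma IsMF.niceAt {Γ : Subgroup SL(2, ℤ)} [IsLevel Γ] {k : ℤ} {f : ℍ → ℂ} (hf : IsMF Γ k f)
    {σ : SL(2, ℤ)} {w : ℤ}
    (h : σ * ModularGroup.T ^ w * σ⁻¹ ∈ Γ) : NiceAt w (f ∣[k] σ) where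
  mdiff := by
    have : MDiff (f ∣[k] (σ : GL (Fin 2) ℝ)) := hf.mdiff.slash k _
    exact this
  bdd := hf.bdd σ
  per := by
    apply periodic_comp_ofComplex_of_vadd
    intro z
    have h1 := slash_T_zpow k (f ∣[k] σ) w z
    rw [← SlashAction.slash_mul] at h1
    have h2 : σ * ModularGroup.T ^ w = (σ * ModularGroup.T ^ w * σ⁻¹) * σ := by group
    rw [h2, SlashAction.slash_mul, hf.slash_eq ⟨_, h⟩] at h1
    exact_mod_cast h1.symm

/-- The order at the cusp `σ ∞`. -/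
noncomputable def ordCusp (Γ : Subgroup SL(2, ℤ)) [IsLevel Γ] (σ : SL(2, ℤ)) (w : ℤ) (hw : 0 < w)
    (h : σ * ModularGroup.T ^ w * σ⁻¹ ∈ Γ) : FnOrd Γ where
  o k f := cuspOrd w (f ∣[k] σ)
  o_mul {k l f g} hf hg hf0 hg0 := by
    rw [ModularForm.mul_slash_SL2, (hf.niceAt h).cuspOrd_mul (by exact_mod_cast hw)
      (hg.niceAt h) (slash_ne_zero hf0 σ) (slash_ne_zero hg0 σ)]
    push_cast
    rfl
  o_add {k f g} hf hg hf0 hg0 hfg := by
    have h1 := (hf.niceAt h).cuspOrd_add (by exact_mod_cast hw) (hg.niceAt h)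
      (slash_ne_zero hf0 σ) (slash_ne_zero hg0 σ) (by
        rw [← SlashAction.add_slash]
        exact slash_ne_zero hfg σ)
    rw [SlashAction.add_slash]
    exact_mod_cast h1
  o_const {c} hc := by
    have h1 : ((fun _ => c) : ℍ → ℂ) ∣[(0 : ℤ)] σ = (fun _ => c) :=
      ModularForm.is_invariant_const σ c
    rw [h1, NiceAt.cuspOrd_const (by exact_mod_cast hw) hc]
    rfl

end Fermat.Agent.H02G
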