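import Fermat.Agent.H02G.Finite

set_option autoImplicit false

/-!
# Eisenstein series with a character of `Γ`

-/

noncomputable section

open UpperHalfPlane Filter Function Complex Manifold CongruenceSubgroup EisensteinSeries
  ModularForm Matrix Topology

open scoped MatrixGroups

namespace Fermat.Agent.H02G

open Fermat.Agent.H02 (Fa mdiff_Fa Fa_slash isBoundedAtImInfty_Fa constA tendsto_Fa row_mul
  eq_T_zpow_mul slash_T_zpow vecMul_inv_mul vecMul_mul_inv)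

variable {Γ : Subgroup SL(2, ℤ)}

/-- A character of `Γ` trivial on all parabolic elements and on `-1`. -/
structure TrivOnPar (ψ : ↥Γ →* ℂˣ) : Prop where
  par : ∀ (g : SL(2, ℤ)) (w : ℤ) (γ : ↥Γ),
    (γ : SL(2, ℤ)) = g * ModularGroup.T ^ w * g⁻¹ → ψ γ = 1
  neg : ∀ γ : ↥Γ, (γ : SL(2, ℤ)) = -1 → ψ γ = 1

open Classical in
/-- Coefficient function of the Eisenstein series with character `ψ`. -/
def coefChar (ψ : ↥Γ →* ℂˣ) (v : Fin 2 → ℤ) : ℂ :=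
  if h : ∃ γ : ↥Γ, (γ : SL(2, ℤ)) 1 0 = v 0 ∧ (γ : SL(2, ℤ)) 1 1 = v 1 then
    (((ψ h.choose)⁻¹ : ℂˣ) : ℂ) else 0

lemma coefChar_norm_le {ψ : ↥Γ →* ℂˣ} (hn : ∀ γ, ‖(ψ γ : ℂ)‖ = 1) (v : Fin 2 → ℤ) :
    ‖coefChar ψ v‖ ≤ 1 := by
  rw [coefChar]
  split_ifs with h
  · rw [Units.val_inv_eq_inv_val, norm_inv, hn, inv_one]
  · simp

section level

variable [IsLevel Γ]

lemma TrivOnPar.T_zpow {ψ : ↥Γ →* ℂˣ} (hψ : TrivOnPar ψ) (n : ℤ) :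
    ψ ⟨ModularGroup.T ^ n, T_zpow_mem Γ n⟩ = 1 :=
  hψ.par 1 n _ (by simp)

lemma coefChar_of_row {ψ : ↥Γ →* ℂˣ} (hψ : TrivOnPar ψ) (γ : ↥Γ)
    {v : Fin 2 → ℤ} (h0 : (γ : SL(2, ℤ)) 1 0 = v 0) (h1 : (γ : SL(2, ℤ)) 1 1 = v 1) :
    coefChar ψ v = (((ψ γ)⁻¹ : ℂˣ) : ℂ) := by
  have h : ∃ γ : ↥Γ, (γ : SL(2, ℤ)) 1 0 = v 0 ∧ (γ : SL(2, ℤ)) 1 1 = v 1 := ⟨γ, h0, h1⟩
  rw [coefChar, dif_pos h]
  have hs := h.choose_spec
  set γ' := h.choose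
  obtain ⟨n, hn⟩ := eq_T_zpow_mul (g := γ) (g' := γ') (hs.1.trans h0.symm) (hs.2.trans h1.symm)
  have h2 : γ' = ⟨ModularGroup.T ^ n, T_zpow_mem Γ n⟩ * γ := Subtype.ext hn
  rw [h2, map_mul, hψ.T_zpow n, one_mul]

lemma coefChar_vecMul {ψ : ↥Γ →* ℂˣ} (hψ : TrivOnPar ψ) (γ : ↥Γ)
    (v : Fin 2 → ℤ) :
    coefChar ψ (v ᵥ* (((γ : SL(2, ℤ))⁻¹ : SL(2, ℤ)) : Matrix (Fin 2) (Fin 2) ℤ)) =
      (ψ γ : ℂ) * coefChar ψ v := by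
  have key : ∀ (g γ : ↥Γ) (v : Fin 2 → ℤ), (g : SL(2, ℤ)) 1 0 = v 0 →
      (g : SL(2, ℤ)) 1 1 = v 1 → ∀ i : Fin 2, ((g * γ : ↥Γ) : SL(2, ℤ)) 1 i =
        (v ᵥ* ((γ : SL(2, ℤ)) : Matrix (Fin 2) (Fin 2) ℤ)) i := by
    intro g γ v h0 h1 i
    have h : (fun j : Fin 2 => ((g : SL(2, ℤ)) 1 j : ℤ)) = v := by
      ext j; fin_cases j
      · exact h0
      · exact h1
    rw [← h]
    exact row_mul _ _ i
  by_cases h : ∃ g : ↥Γ, (g : SL(2, ℤ)) 1 0 = v 0 ∧ (g : SL(2, ℤ)) 1 1 = v 1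
  · obtain ⟨g, h0, h1⟩ := h
    have hk : ∀ i : Fin 2, ((g * γ⁻¹ : ↥Γ) : SL(2, ℤ)) 1 i =
        (v ᵥ* (((γ : SL(2, ℤ))⁻¹ : SL(2, ℤ)) : Matrix (Fin 2) (Fin 2) ℤ)) i :=
      key g γ⁻¹ v h0 h1
    rw [coefChar_of_row hψ g h0 h1, coefChar_of_row hψ (g * γ⁻¹) (hk 0) (hk 1)]
    rw [map_mul, map_inv, _root_.mul_inv_rev, inv_inv, Units.val_mul]
  · have h' : ¬ ∃ g : ↥Γ, (g : SL(2, ℤ)) 1 0 =
        (v ᵥ* (((γ : SL(2, ℤ))⁻¹ : SL(2, ℤ)) : Matrix (Fin 2) (Fin 2) ℤ)) 0 ∧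
        (g : SL(2, ℤ)) 1 1 =
        (v ᵥ* (((γ : SL(2, ℤ))⁻¹ : SL(2, ℤ)) : Matrix (Fin 2) (Fin 2) ℤ)) 1 := by
      rintro ⟨g, h0, h1⟩
      have hk := key g γ _ h0 h1
      rw [vecMul_inv_mul] at hk
      exact h ⟨g * γ, hk 0, hk 1⟩
    rw [coefChar, coefChar, dif_neg h, dif_neg h', mul_zero]

/-- The Eisenstein series with character `ψ`. -/
def EisChar (k : ℤ) (ψ : ↥Γ →* ℂˣ) : ℍ → ℂ := Fa k (coefChar ψ)

omit [IsLevel Γ] in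
theorem mdiff_EisChar {k : ℤ} (hk : 3 ≤ k) {ψ : ↥Γ →* ℂˣ}
    (hn : ∀ γ, ‖(ψ γ : ℂ)‖ = 1) : MDiff (EisChar k ψ) :=
  mdiff_Fa hk (coefChar_norm_le hn)

theorem EisChar_slash (k : ℤ) {ψ : ↥Γ →* ℂˣ} (hψ : TrivOnPar ψ) (γ : ↥Γ) :
    EisChar k ψ ∣[k] (γ : SL(2, ℤ)) = (ψ γ : ℂ) • EisChar k ψ := by
  rw [EisChar, Fa_slash]
  simp_rw [coefChar_vecMul hψ]
  ext z
  simp only [Fa, Pi.smul_apply, smul_eq_mul, mul_assoc]
  rw [tsum_mul_left]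

theorem EisChar_slash_periodic (k : ℤ) {ψ : ↥Γ →* ℂˣ} (hψ : TrivOnPar ψ)
    (δ : SL(2, ℤ)) (z : ℍ) :
    (EisChar k ψ ∣[k] δ) ((ModularGroup.T ^ (lev Γ : ℤ) : SL(2, ℤ)) • z) =
      (EisChar k ψ ∣[k] δ) z := by
  rw [← slash_T_zpow k (EisChar k ψ ∣[k] δ), ← SlashAction.slash_mul]
  have h1 : δ * ModularGroup.T ^ (lev Γ : ℤ) = (δ * ModularGroup.T ^ (lev Γ : ℤ) * δ⁻¹) * δ := by
    group
  have h2 := EisChar_slash k hψ ⟨_, conj_T_mem Γ δ⟩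
  rw [hψ.par δ (lev Γ) ⟨_, conj_T_mem Γ δ⟩ rfl, Units.val_one, one_smul] at h2
  rw [h1, SlashAction.slash_mul, h2]

theorem isBoundedAtImInfty_EisChar_slash {k : ℤ} (hk : 3 ≤ k)
    {ψ : ↥Γ →* ℂˣ} (hn : ∀ γ, ‖(ψ γ : ℂ)‖ = 1) (hψ : TrivOnPar ψ) (δ : SL(2, ℤ)) :
    IsBoundedAtImInfty (EisChar k ψ ∣[k] δ) := by
  have h := EisChar_slash_periodic k hψ δ
  rw [EisChar, Fa_slash] at h ⊢
  exact isBoundedAtImInfty_Fa hk (fun v => coefChar_norm_le hn _) (lev_pos Γ) h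

omit [IsLevel Γ] in
lemma coefChar_zero_row {ψ : ↥Γ →* ℂˣ} {v : Fin 2 → ℤ}
    (h0 : v 0 = 0) (h1 : v ≠ ![0, 1]) (h2 : v ≠ ![0, -1]) : coefChar ψ v = 0 := by
  rw [coefChar, dif_neg]
  rintro ⟨γ, e0, e1⟩
  have hg := (γ : SL(2, ℤ)).det_coe
  rw [det_fin_two, e0, h0, mul_zero, sub_zero, e1] at hg
  rcases Int.eq_one_or_neg_one_of_mul_eq_one' hg with h | h
  · exact h1 (by ext i; fin_cases i <;> simp [h0, h.2])
  · exact h2 (by ext i; fin_cases i <;> simp [h0, h.2])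

end level

variable [IsCong Γ]

lemma mem_of_row_zero {g : SL(2, ℤ)} (h0 : g 1 0 = 0) : g ∈ Γ := by
  have hg := g.det_coe
  rw [det_fin_two, h0, mul_zero, sub_zero] at hg
  rcases Int.eq_one_or_neg_one_of_mul_eq_one' hg with h | h
  · obtain ⟨n, hn⟩ := eq_T_zpow_mul (g := 1) (g' := g) (by simp [h0]) (by simp [h.2])
    rw [hn, mul_one]
    exact T_zpow_mem Γ n
  · obtain ⟨n, hn⟩ := eq_T_zpow_mul (g := -1) (g' := g) (by simp [h0]) (by simp [h.2])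
    rw [hn]
    exact mul_mem (T_zpow_mem Γ n) IsCong.neg_mem

lemma constA_coefChar {k : ℤ} (hk : Even k) {ψ : ↥Γ →* ℂˣ} (hψ : TrivOnPar ψ) :
    constA k (coefChar ψ) = 2 := by
  rw [constA, tsum_eq_sum (s := {![0, 1], ![0, -1]})]
  · have h1 : coefChar ψ ![0, 1] = 1 := by
      rw [coefChar_of_row hψ 1 (by simp) (by simp)]; simp
    have h2 : coefChar ψ ![0, -1] = 1 := by
      have hm : (-1 : SL(2, ℤ)) ∈ Γ := IsCong.neg_mem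
      rw [coefChar_of_row hψ ⟨-1, hm⟩ (by simp) (by simp), hψ.neg ⟨-1, hm⟩ rfl]; simp
    rw [Finset.sum_pair (by simp)]
    simp only [cons_val_zero, if_true, cons_val_one, cons_val_fin_one, h1, h2, one_mul,
      Int.cast_one, _root_.one_zpow, Int.cast_neg]
    rw [(hk.neg).neg_one_zpow]
    norm_num
  · intro v hv
    simp only [Finset.mem_insert, Finset.mem_singleton, not_or] at hv
    split_ifs with h
    · rw [coefChar_zero_row h hv.1 hv.2, zero_mul]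
    · rfl

/-- Value at the cusp `i∞`. -/
theorem tendsto_EisChar {k : ℤ} (hk : 3 ≤ k) (hk2 : Even k) {ψ : ↥Γ →* ℂˣ}
    (hn : ∀ γ, ‖(ψ γ : ℂ)‖ = 1) (hψ : TrivOnPar ψ) :
    Tendsto (EisChar k ψ) atImInfty (𝓝 2) := by
  rw [← constA_coefChar hk2 hψ]
  refine tendsto_Fa hk (coefChar_norm_le hn) one_pos fun z => ?_
  have h := congrFun (EisChar_slash k hψ ⟨_, T_zpow_mem Γ 1⟩) z
  rw [hψ.T_zpow 1, Units.val_one, one_smul, slash_T_zpow] at h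
  exact_mod_cast h

/-- Value at the other cusps. -/
theorem tendsto_EisChar_slash {k : ℤ} (hk : 3 ≤ k) {ψ : ↥Γ →* ℂˣ}
    (hn : ∀ γ, ‖(ψ γ : ℂ)‖ = 1) (hψ : TrivOnPar ψ) {δ : SL(2, ℤ)} (hδ : δ ∉ Γ) :
    Tendsto (EisChar k ψ ∣[k] δ) atImInfty (𝓝 0) := by
  have h := EisChar_slash_periodic k hψ δ
  rw [EisChar, Fa_slash] at h ⊢
  have h1 := tendsto_Fa hk (fun v => coefChar_norm_le hn _) (lev_pos Γ) h
  have h2 : constA k (fun v => coefChar ψ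
      (v ᵥ* ((δ⁻¹ : SL(2, ℤ)) : Matrix (Fin 2) (Fin 2) ℤ))) = 0 := by
    rw [constA]
    refine (tsum_congr fun v => ?_).trans tsum_zero
    split_ifs with hv
    · rw [coefChar, dif_neg, zero_mul]
      rintro ⟨γ, e0, e1⟩
      apply hδ
      have h3 : (fun j : Fin 2 => ((γ : SL(2, ℤ)) 1 j : ℤ)) =
          v ᵥ* ((δ⁻¹ : SL(2, ℤ)) : Matrix (Fin 2) (Fin 2) ℤ) := by
        ext j
        fin_cases j
        · exact e0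
        · exact e1
      have h4 := row_mul (γ : SL(2, ℤ)) δ 0
      rw [h3, vecMul_inv_mul, hv] at h4
      have h5 : ((γ : SL(2, ℤ)) * δ) ∈ Γ := mem_of_row_zero h4
      exact (Subgroup.mul_mem_cancel_left Γ γ.2).mp h5
    · rfl
  rw [h2] at h1
  exact h1

end Fermat.Agent.H02G
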