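import Fermat.Agent.H02G.RootChar

/-!
# The characters of `m`-th roots are trivial on elliptic and parabolic elements
-/

set_option autoImplicit false

namespace Fermat.Agent.H02G

open UpperHalfPlane Filter Topology ModularForm CongruenceSubgroup
open scoped Manifold MatrixGroups ModularForm

open Fermat.Agent.H01 (qLf qLf_one IntVal ordAt ordAt_mul ordAt_add ordAt_const ordAt_pow mdiff_pow
  pow_ne_zero_of_mdiff slash_pow slash_mdiff isBoundedAtImInfty_of_pow exists_root_mdiff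
  eq_mul_of_pow_eq_mdiff NiceAt cuspOrd slash_T_zpow slash_ne_zero eq_denom_zpow_of_fix
  exists_conj_of_trace_sq coe_smul_sub_coe_smul eq_one_of_dvd_cuspOrd)

section

variable {Γ : Subgroup SL(2, ℤ)} [IsLevel Γ] {m : ℕ} {x y : LaurentSeries ℂ} {ψ ψ' : Γ →* ℂˣ} {k l : ℤ}
  {f g H f' g' H' : ℍ → ℂ}

lemma IsMF.denom_zpow_eq_one (hf : IsMF Γ k f) (hf0 : f ≠ 0) (γ : Γ) {τ : ℍ}
    (hγ : (γ : SL(2, ℤ)) • τ = τ) :
    denom (γ : SL(2, ℤ)) τ ^ (-(k + 2 * (ordAt τ f : ℤ))) = 1 := by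
  refine (eq_denom_zpow_of_fix hf.mdiff hf0 hγ (c := 1) ?_).symm
  rw [hf.slash_eq γ, one_smul]

/-- Triviality on elliptic elements (and on `-1`). -/
theorem HasRootChar.eq_one_of_fix (hm : m ≠ 0) (h : HasRootChar Γ m x ψ) (hx : StrongDvd Γ m x)
    (γ : Γ) {τ : ℍ} (hγ : (γ : SL(2, ℤ)) • τ = τ) : ψ γ = 1 := by
  obtain ⟨k, f, g, H, h⟩ := hasRootChar_iff.1 h
  have hj0 : denom (γ : SL(2, ℤ)) τ ≠ 0 := denom_ne_zero _ τ
  set j : ℂ := denom (γ : SL(2, ℤ)) τ with hj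
  set u : ℂˣ := Units.mk0 j hj0 with hu
  set e : ℕ := orderOf (u ^ 2) with he
  have hkey : ∀ (k : ℤ) (f g : ℍ → ℂ), IsMF Γ k f → IsMF Γ k g → f ≠ 0 → g ≠ 0 →
      (e : ℤ) ∣ (ordAt τ f : ℤ) - ordAt τ g := by
    intro k f g hf hg hf0 hg0
    have h1 := hf.denom_zpow_eq_one hf0 γ hγ
    have h2 := hg.denom_zpow_eq_one hg0 γ hγ
    rw [orderOf_dvd_iff_zpow_eq_one]
    ext
    simp only [Units.val_zpow_eq_zpow_val, Units.val_pow_eq_pow_val, Units.val_one, hu,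
      Units.val_mk0]
    rw [← zpow_natCast, ← zpow_mul]
    have h3 : ((2 : ℕ) : ℤ) * ((ordAt τ f : ℤ) - ordAt τ g) =
        -(k + 2 * (ordAt τ g : ℤ)) - -(k + 2 * (ordAt τ f : ℤ)) := by
      push_cast
      ring
    rw [h3, zpow_sub₀ hj0, h1, h2, div_one]
  have hval : ∀ y ∈ mfq Γ, y ≠ 0 → (e : ℤ) ∣ (ordPt Γ τ).val y := by
    intro y hy hy0
    obtain ⟨k', f', g', h'⟩ := MFRep.exists_of_mem hy hy0
    rw [(ordPt Γ τ).val_eq h']
    exact hkey k' f' g' h'.hf h'.hg h'.hf0 h'.hg0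
  obtain ⟨t, ht⟩ := hx (ordPt Γ τ) e (by omega) hval
  rw [(ordPt Γ τ).val_eq h.rep] at ht
  change (ordAt τ f : ℤ) - ordAt τ g = e * m * t at ht
  have h1 : m * ordAt τ H = ordAt τ f + (m - 1) * ordAt τ g := by
    rw [← ordAt_pow h.mdiff (h.H_ne_zero hm), h.pow_eq,
      ordAt_mul h.rep.hf.mdiff (mdiff_pow h.rep.hg.mdiff _) h.rep.hf0
        (pow_ne_zero_of_mdiff h.rep.hg0 _), ordAt_pow h.rep.hg.mdiff h.rep.hg0]
  have h2 : (ordAt τ H : ℤ) = e * t + ordAt τ g := by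
    have h3 : (m : ℤ) * ordAt τ H = ordAt τ f + (m - 1) * ordAt τ g := by
      have h4 : ((m * ordAt τ H : ℕ) : ℤ) = ((ordAt τ f + (m - 1) * ordAt τ g : ℕ) : ℤ) := by
        rw [h1]
      rw [Nat.cast_add, Nat.cast_mul, Nat.cast_mul,
        Nat.cast_sub (Nat.one_le_iff_ne_zero.2 hm)] at h4
      simpa using h4
    have hm' : (m : ℤ) ≠ 0 := by exact_mod_cast hm
    apply mul_left_cancel₀ hm'
    rw [h3]
    linear_combination ht
  have h3 := eq_denom_zpow_of_fix h.mdiff (h.H_ne_zero hm) hγ (h.slash γ)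
  ext
  rw [h3, Units.val_one, ← hj]
  have h4 : -(k + 2 * (ordAt τ H : ℤ)) = -(k + 2 * (ordAt τ g : ℤ)) + 2 * e * (-t) := by
    rw [h2]
    ring
  rw [h4, zpow_add₀ hj0, h.rep.hg.denom_zpow_eq_one h.rep.hg0 γ hγ, one_mul, zpow_mul, zpow_mul]
  have h5 : (j ^ (2 : ℤ)) ^ (e : ℤ) = 1 := by
    have h6 := pow_orderOf_eq_one (u ^ 2)
    have h7 := congrArg (Units.val) h6
    rw [Units.val_pow_eq_pow_val, Units.val_pow_eq_pow_val, Units.val_one] at h7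
    rw [zpow_natCast]
    exact_mod_cast h7
  rw [h5, one_zpow]

/-- Triviality on the elements `σ T^w σ⁻¹`, `w > 0`. -/
theorem HasRootChar.eq_one_of_unipotent (hm : m ≠ 0) (h : HasRootChar Γ m x ψ)
    (hx : StrongDvd Γ m x) (γ : Γ) {σ : SL(2, ℤ)} {w : ℤ} (hw : 0 < w)
    (hγ : (γ : SL(2, ℤ)) = σ * ModularGroup.T ^ w * σ⁻¹) : ψ γ = 1 := by
  obtain ⟨k, f, g, H, h⟩ := hasRootChar_iff.1 h
  have hmem : σ * ModularGroup.T ^ w * σ⁻¹ ∈ Γ := hγ ▸ γ.2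
  have hw' : (0 : ℝ) < w := by exact_mod_cast hw
  have hPM := h.rep.isMF hm
  have hP : NiceAt w ((f * g ^ (m - 1)) ∣[(m * k : ℤ)] σ) := hPM.niceAt hmem
  have hP0 : (f * g ^ (m - 1)) ∣[(m * k : ℤ)] σ ≠ 0 := slash_ne_zero h.rep.ne_zero' σ
  have hord : (m : ℤ) ∣ cuspOrd w ((f * g ^ (m - 1)) ∣[(m * k : ℤ)] σ) := by
    have h1 : (f * g ^ (m - 1)) ∣[(m * k : ℤ)] σ = (f ∣[k] σ) * (g ∣[k] σ) ^ (m - 1) := by
      have h2 : (m * k : ℤ) = k + ((m - 1 : ℕ) * k : ℤ) := by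
        rw [Nat.cast_sub (Nat.one_le_iff_ne_zero.2 hm)]
        push_cast
        ring
      rw [h2, ModularForm.mul_slash_SL2, slash_pow]
    have hgσ0 : g ∣[k] σ ≠ 0 := slash_ne_zero h.rep.hg0 σ
    rw [h1, (h.rep.hf.niceAt hmem).cuspOrd_mul hw' ((h.rep.hg.niceAt hmem).pow _)
      (slash_ne_zero h.rep.hf0 σ) (pow_ne_zero_of_mdiff hgσ0 _),
      (h.rep.hg.niceAt hmem).cuspOrd_pow hw' hgσ0]
    have h3 := hx.dvd (ordCusp Γ σ w hw hmem)
    rw [(ordCusp Γ σ w hw hmem).val_eq h.rep] at h3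
    change (m : ℤ) ∣ (cuspOrd w (f ∣[k] σ) : ℤ) - cuspOrd w (g ∣[k] σ) at h3
    have h4 : ((cuspOrd w (f ∣[k] σ) + (m - 1) * cuspOrd w (g ∣[k] σ) : ℕ) : ℤ) =
        ((cuspOrd w (f ∣[k] σ) : ℤ) - cuspOrd w (g ∣[k] σ)) + m * cuspOrd w (g ∣[k] σ) := by
      rw [Nat.cast_add, Nat.cast_mul, Nat.cast_sub (Nat.one_le_iff_ne_zero.2 hm)]
      push_cast
      ring
    rw [h4]
    exact dvd_add h3 (dvd_mul_right _ _)
  have key := eq_one_of_dvd_cuspOrd hm hw' hP hP0 (by exact_mod_cast hord)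
    (slash_mdiff k h.mdiff σ) (by
      intro z
      have h1 := slash_pow k H σ m
      rw [h.pow_eq] at h1
      exact (congrFun h1 z).symm) (c := (ψ γ : ℂ)) (by
      intro z
      rw [← slash_T_zpow k (H ∣[k] σ) w z, ← SlashAction.slash_mul]
      have h2 : σ * ModularGroup.T ^ w = (γ : SL(2, ℤ)) * σ := by
        rw [hγ]
        group
      rw [h2, SlashAction.slash_mul, h.slash γ, ModularForm.SL_smul_slash]
      rfl)
  ext
  exact key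

end

section

variable {Γ : Subgroup SL(2, ℤ)} [IsCong Γ] {m : ℕ} {x y : LaurentSeries ℂ} {ψ ψ' : Γ →* ℂˣ}

/-- Triviality on all elements of trace `± 2`. -/
theorem HasRootChar.eq_one_of_trace_sq (hm : m ≠ 0) (h : HasRootChar Γ m x ψ)
    (hx : StrongDvd Γ m x) (γ : Γ)
    (hγ : ((γ : SL(2, ℤ)) 0 0 + (γ : SL(2, ℤ)) 1 1) ^ 2 = 4) : ψ γ = 1 := by
  have hneg : ∀ δ : Γ, (δ : SL(2, ℤ)) = -1 → ψ δ = 1 := by
    intro δ hδ
    refine h.eq_one_of_fix hm hx δ (τ := I) ?_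
    rw [hδ]
    simp
  have hone : ∀ δ : Γ, (δ : SL(2, ℤ)) = 1 → ψ δ = 1 := by
    intro δ hδ
    have : δ = 1 := Subtype.ext hδ
    rw [this, map_one]
  have huni : ∀ (δ : Γ) (σ : SL(2, ℤ)) (w : ℤ),
      (δ : SL(2, ℤ)) = σ * ModularGroup.T ^ w * σ⁻¹ → ψ δ = 1 := by
    intro δ σ w hδ
    rcases lt_trichotomy w 0 with hw | hw | hw
    · have h1 : ψ δ⁻¹ = 1 := by
        refine h.eq_one_of_unipotent hm hx δ⁻¹ (σ := σ) (w := -w) (by omega) ?_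
        rw [Subgroup.coe_inv, hδ]
        group
      rw [map_inv, inv_eq_one] at h1
      exact h1
    · apply hone
      rw [hδ, hw]
      simp
    · exact h.eq_one_of_unipotent hm hx δ hw hδ
  obtain ⟨σ, w, hσ | hσ⟩ := exists_conj_of_trace_sq hγ
  · exact huni γ σ w hσ
  · have hnmem : (-1 : SL(2, ℤ)) ∈ Γ := IsCong.neg_mem
    have h1 : ψ (⟨-1, hnmem⟩ * γ) = 1 := by
      refine huni _ σ w ?_
      rw [Subgroup.coe_mul, hσ]
      simp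
    rw [map_mul, hneg ⟨-1, hnmem⟩ rfl, one_mul] at h1
    exact h1

end

end Fermat.Agent.H02G
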