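import Fermat.Agent.H02G.RootForm

set_option autoImplicit false

/-!
# Modular forms and slow growth functions for `Γ`, the separating function

-/

noncomputable section

open UpperHalfPlane hiding I
open ModularForm EisensteinSeries Filter Complex Topology Function CongruenceSubgroup
open ModularCurve
open scoped MatrixGroups Manifold Real Nat

namespace Fermat.Agent.H02G

local notation "Δ" => ModularForm.discriminant

open Fermat.Agent.H18 (jfun)
open Fermat.Agent.H01 (qLf)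
open Fermat.Agent.H02 (modAlg tr tr_div_discriminant good_discriminant IsLau periodic_of_T qLauFun
  qS lauAlg modAlg_le_lauAlg bdd_mono IsSlow tr_tr tr_one tr_apply qLauFun_mul qLauFun_pow
  qLauFun_add qLauFun_ne_zero)

variable {Γ : Subgroup SL(2, ℤ)}

section level

variable [IsLevel Γ] {k : ℤ} {f : ℍ → ℂ}

/-- Constructor for modular forms. -/
lemma IsMF.mk' (hf : MDiff f)
    (hs : ∀ γ ∈ Γ, f ∣[k] γ = f) (hb : ∀ σ : SL(2, ℤ), IsBoundedAtImInfty (f ∣[k] σ)) :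
    IsMF Γ k f := by
  refine ⟨{ toFun := f, slash_action_eq' := ?_, holo' := hf, bdd_at_cusps' := ?_ }, rfl⟩
  · rintro _ ⟨γ, hγ, rfl⟩
    exact hs γ hγ
  · intro c hc
    rw [Subgroup.IsArithmetic.isCusp_iff_isCusp_SL2Z] at hc
    rw [OnePoint.isBoundedAt_iff_forall_SL2Z hc]
    exact fun σ _ => hb σ

lemma IsMF.mono {Γ' : Subgroup SL(2, ℤ)} [IsLevel Γ'] (hf : IsMF Γ k f)
    (h : Γ' ≤ Γ) : IsMF Γ' k f :=
  IsMF.mk' hf.mdiff (fun γ hγ => hf.slash_eq ⟨γ, h hγ⟩) (fun σ => hf.bdd σ)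

variable (Γ) in
lemma IsMF.of_levelOne {k : ℤ} (A : ModularForm 𝒮ℒ k) : IsMF Γ k A := by
  refine IsMF.mk' A.holo' (fun γ _ => ?_) (fun σ => ?_)
  · exact SlashInvariantFormClass.slash_action_eq A _ ⟨γ, rfl⟩
  · exact ModularFormClass.bdd_at_infty_slash A σ

variable (Γ) in
lemma IsMF.discriminant : IsMF Γ 12 ModularForm.discriminant :=
  IsMF.of_levelOne Γ (CuspForm.discriminant : ModularForm 𝒮ℒ 12)

lemma mfq_mono {Γ' : Subgroup SL(2, ℤ)} [IsLevel Γ'] (h : Γ' ≤ Γ) : mfq Γ ≤ mfq Γ' := by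
  intro x hx
  obtain ⟨k, f, g, hf, hg, hg0, he⟩ := mem_mfq'.mp hx
  exact mem_mfq'.mpr ⟨k, f, g, hf.mono h, hg.mono h, hg0, he⟩

/-- A modular form of weight `12n` divided by `Δ^n`. -/
theorem div_discriminant_mem {n : ℕ}
    (hf : IsMF Γ ((12 : ℤ) * n) f) : f / Δ ^ n ∈ modAlg Γ := by
  have hb : ∀ δ : SL(2, ℤ), tr δ (f / Δ ^ n) * Δ ^ n = f ∣[(12 : ℤ) * n] δ := by
    intro δ
    rw [tr_div_discriminant]
    ext z
    have hD := discriminant_ne_zero z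
    simp only [Pi.mul_apply, Pi.div_apply, Pi.pow_apply]
    field_simp
  refine ⟨⟨?_, fun δ => ⟨n, ?_⟩⟩, fun γ hγ => ?_⟩
  · have h1 : f / Δ ^ n = fun z => f z * (Δ z ^ n)⁻¹ := by
      ext z; rw [Pi.div_apply, Pi.pow_apply, div_eq_mul_inv]
    rw [h1]
    refine hf.mdiff.mul ?_
    have h2 : DifferentiableOn ℂ (fun w : ℂ => ((Δ ^ n) (ofComplex w))⁻¹) {z : ℂ | 0 < z.im} := by
      refine DifferentiableOn.inv ?_ ?_
      · exact UpperHalfPlane.mdifferentiable_iff.mp (good_discriminant.pow n).holo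
      · intro w _
        exact pow_ne_zero n (discriminant_ne_zero _)
    rw [UpperHalfPlane.mdifferentiable_iff]
    exact h2
  · rw [hb]
    exact hf.bdd δ
  · rw [tr_div_discriminant, hf.slash_eq ⟨γ, hγ⟩]

lemma div_mul_discriminant (n : ℕ) (f : ℍ → ℂ) : f / Δ ^ n * Δ ^ n = f := by
  ext z
  have hD := discriminant_ne_zero z
  simp only [Pi.mul_apply, Pi.div_apply, Pi.pow_apply]
  field_simp

lemma isLau_div_discriminant {n : ℕ} (hf : IsMF Γ ((12 : ℤ) * n) f) : IsLau n (f / Δ ^ n) := by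
  have h := div_discriminant_mem hf
  refine ⟨h.1.holo, periodic_of_T (h.2 _ IsLevel.T_mem), ?_⟩
  rw [div_mul_discriminant]
  have h2 := hf.bdd 1
  rwa [SlashAction.slash_one] at h2

lemma qLauFun_div_discriminant {n : ℕ} (hf : IsMF Γ ((12 : ℤ) * n) f) :
    qLauFun (f / Δ ^ n) * qS Δ ^ n = qLf f := by
  rw [(isLau_div_discriminant hf).qLauFun_mul_pow, div_mul_discriminant]
  rfl

lemma slash_mul_discriminant (n : ℕ) (f : ℍ → ℂ) (δ : SL(2, ℤ)) :
    (f * Δ ^ n) ∣[(12 : ℤ) * n] δ = tr δ f * Δ ^ n := by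
  have h := tr_div_discriminant n (f * Δ ^ n) δ
  have h1 : f * Δ ^ n / Δ ^ n = f := by
    ext z
    have hD := discriminant_ne_zero z
    simp only [Pi.mul_apply, Pi.div_apply, Pi.pow_apply]
    field_simp
  rw [h1] at h
  rw [h, div_mul_discriminant]

/-- A slow growth modular function multiplied by a power of `Δ` is a modular form. -/
theorem exists_isMF_mul (hf : f ∈ modAlg Γ) : ∃ n : ℕ, IsMF Γ ((12 : ℤ) * n) (f * Δ ^ n) := by
  choose n hn using hf.1.bdd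
  obtain ⟨M, hM⟩ : ∃ M : ℕ, ∀ q : SL(2, ℤ) ⧸ Γ, n (q.out)⁻¹ ≤ M := by
    have := Fintype.ofFinite (SL(2, ℤ) ⧸ Γ)
    exact ⟨Finset.univ.sup fun q : SL(2, ℤ) ⧸ Γ => n (q.out)⁻¹,
      fun q => Finset.le_sup (f := fun q : SL(2, ℤ) ⧸ Γ => n (q.out)⁻¹) (Finset.mem_univ q)⟩
  refine ⟨M, IsMF.mk' (hf.1.holo.mul (good_discriminant.pow M).holo) (fun γ hγ => ?_) fun σ => ?_⟩
  · rw [slash_mul_discriminant, hf.2 γ hγ]
  · rw [slash_mul_discriminant]
    obtain ⟨γ, hγ⟩ := QuotientGroup.mk_out_eq_mul Γ σ⁻¹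
    have h1 : tr σ f = tr ((((σ⁻¹ : SL(2, ℤ)) : SL(2, ℤ) ⧸ Γ)).out)⁻¹ f := by
      rw [hγ, mul_inv_rev, inv_inv, ← tr_tr, hf.2 _ (inv_mem γ.2)]
    rw [h1]
    exact bdd_mono (hn _) (hM _)

lemma mem_lauAlg_of_mem (hf : f ∈ modAlg Γ) : f ∈ lauAlg :=
  modAlg_le_lauAlg IsLevel.T_mem hf

/-- Slow growth functions give elements of the function field. -/
theorem qLauFun_mem_mfq (hf : f ∈ modAlg Γ) : qLauFun f ∈ mfq Γ := by
  obtain ⟨n, hn⟩ := exists_isMF_mul hf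
  refine mem_mfq'.mpr ⟨_, _, Δ ^ n, hn, ((IsMF.discriminant Γ).pow n).cast (mul_comm _ _), ?_, ?_⟩
  · exact Fermat.Agent.H01.pow_ne_zero_of_mdiff Fermat.Agent.H01.discriminant_fun_ne_zero n
  · have h1 := qLauFun_div_discriminant hn
    have h2 : f * Δ ^ n / Δ ^ n = f := by
      ext z
      have hD := discriminant_ne_zero z
      simp only [Pi.mul_apply, Pi.div_apply, Pi.pow_apply]
      field_simp
    rw [h2] at h1
    rw [← h1, qLf_pow (IsMF.discriminant Γ)]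
    rfl

lemma mem_lauAlg_of_mem_top (hf : f ∈ modAlg ⊤) : f ∈ lauAlg :=
  modAlg_le_lauAlg (Γ := ⊤) trivial hf

/-- The function field consists of the quotients of slow growth functions. -/
theorem exists_modAlg_of_mem_mfq {x : LaurentSeries ℂ} (hx : x ∈ mfq Γ) :
    ∃ a b : ℍ → ℂ, a ∈ modAlg Γ ∧ b ∈ modAlg Γ ∧ b ≠ 0 ∧ x * qLauFun b = qLauFun a := by
  obtain ⟨k, f, g, hf, hg0, hg1, h⟩ := mem_mfq'.mp hx
  rcases lt_or_ge k 0 with hk | hk
  · exfalso
    obtain ⟨A, rfl⟩ := hg0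
    apply hg1
    rw [ModularForm.isZero_of_neg_weight hk A]
    rfl
  obtain ⟨n, rfl⟩ := Int.eq_ofNat_of_zero_le hk
  have ha : IsMF Γ ((12 : ℤ) * n) (f * g ^ 11) :=
    (hf.mul (hg0.pow 11)).cast (by push_cast; ring)
  have hb : IsMF Γ ((12 : ℤ) * n) (g ^ 12) := (hg0.pow 12).cast (by push_cast; ring)
  have hqb : qLf (g ^ 12) = qLf g ^ 12 := qLf_pow hg0 12
  have hqa : qLf (f * g ^ 11) = qLf f * qLf g ^ 11 := by
    rw [hf.qLf_mul (hg0.pow 11), qLf_pow hg0 11]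
  have hg' : qLf g ≠ 0 := fun h0 => hg1 (hg0.qLf_eq_zero_iff.mp h0)
  have e1 := qLauFun_div_discriminant ha
  have e2 := qLauFun_div_discriminant hb
  have hD := pow_ne_zero n Fermat.Agent.H02.qS_discriminant_ne_zero
  have e3 : x * qLauFun (g ^ 12 / Δ ^ n) = qLauFun (f * g ^ 11 / Δ ^ n) := by
    refine mul_right_cancel₀ hD ?_
    rw [mul_assoc, e2, e1, hqb, hqa, ← h]
    ring
  refine ⟨_, _, div_discriminant_mem ha, div_discriminant_mem hb, ?_, e3⟩
  intro h0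
  have h1 : g ^ 12 = 0 := by
    rw [← div_mul_discriminant n (g ^ 12), h0, zero_mul]
  exact Fermat.Agent.H01.pow_ne_zero_of_mdiff hg1 12 h1

end level

/-! ### The separating function -/

variable (Γ) in
/-- The separating function. -/
def gsep : ℍ → ℂ := EisChar 12 (1 : ↥Γ →* ℂˣ) / Δ ^ 1

variable [IsCong Γ]

lemma norm_one_char (γ : ↥Γ) : ‖((1 : ↥Γ →* ℂˣ) γ : ℂ)‖ = 1 := by simp

variable (Γ) in
lemma isMF_EisChar_one : IsMF Γ ((12 : ℤ) * (1 : ℕ)) (EisChar 12 (1 : ↥Γ →* ℂˣ)) := by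
  refine (IsMF.mk' (k := 12) (mdiff_EisChar (by norm_num) norm_one_char) (fun γ hγ => ?_)
    (fun σ => ?_)).cast (by norm_num)
  · have := EisChar_slash 12 (trivOnPar_one (Γ := Γ)) ⟨γ, hγ⟩
    simpa using this
  · exact isBoundedAtImInfty_EisChar_slash (by norm_num) norm_one_char trivOnPar_one σ

variable (Γ) in
lemma gsep_mem_modAlg : gsep Γ ∈ modAlg Γ := div_discriminant_mem (isMF_EisChar_one Γ)

/-- The stabiliser of the separating function is `Γ`. -/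
theorem mem_of_tr_gsep {β : SL(2, ℤ)} (h : tr β (gsep Γ) = gsep Γ) : β ∈ Γ := by
  by_contra hβ
  have h1 := tendsto_EisChar_slash (k := 12) (by norm_num) norm_one_char
    (trivOnPar_one (Γ := Γ)) hβ
  have h2 := tendsto_EisChar (k := 12) (by norm_num) (by decide) norm_one_char
    (trivOnPar_one (Γ := Γ))
  have h3 : (EisChar 12 (1 : ↥Γ →* ℂˣ)) ∣[(12 : ℤ) * (1 : ℕ)] β = EisChar 12 (1 : ↥Γ →* ℂˣ) := by
    rw [gsep, tr_div_discriminant] at h
    rw [← div_mul_discriminant 1 (EisChar 12 (1 : ↥Γ →* ℂˣ) ∣[(12 : ℤ) * (1 : ℕ)] β), h,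
      div_mul_discriminant]
  have h4 : (12 : ℤ) * (1 : ℕ) = 12 := by norm_num
  rw [h4] at h3
  rw [h3] at h1
  exact two_ne_zero (tendsto_nhds_unique h2 h1)

end Fermat.Agent.H02G
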