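import Fermat.Agent.H02G.Mod

set_option autoImplicit false

/-!
# The field of modular functions for `Γ`: generators, degree over `ℂ(j)`

-/

noncomputable section

open UpperHalfPlane hiding I
open ModularForm EisensteinSeries Filter Complex Topology Function CongruenceSubgroup
open ModularCurve
open scoped MatrixGroups Manifold Real Nat IntermediateField IntermediateField.algebraAdjoinAdjoin

namespace Fermat.Agent.H02G

local notation "𝕢" => Function.Periodic.qParam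
local notation "Δ" => ModularForm.discriminant

open Fermat.Agent.H18 (jfun)
open Fermat.Agent.H01 (qLf)
open Fermat.Agent.H02 (modAlg tr tr_div_discriminant good_discriminant IsLau periodic_of_T qLauFun
  qS lauAlg modAlg_le_lauAlg bdd_mono IsSlow tr_tr tr_one tr_apply qLauFun_mul qLauFun_pow
  qLauFun_add qLauFun_ne_zero exists_poly_of_mem_top qLauFun_poly aeval_mem_subalgebra
  exists_mul_eq_sum exists_mul_eq_sum_card coeff_eq_zero_of_sum_eq_zero qLauFun_sum qLau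
  qLauFun_const qLauFun_injective qLauFun_jfun jfun_mem_lauAlg good_const jfun_mem_modAlg)
open Fermat.Agent.FF (FunField)

section generic

variable {Γ : Subgroup SL(2, ℤ)} [IsCong Γ] (E : IntermediateField ℂ (LaurentSeries ℂ))
  (hj : coeffEmb ℂ jq ∈ E) (hg : qLauFun (gsep Γ) ∈ E)

include hj in
lemma qLauFun_mem_of_top' {f : ℍ → ℂ} (hf : f ∈ modAlg ⊤) : qLauFun f ∈ E := by
  obtain ⟨P, rfl⟩ := exists_poly_of_mem_top hf
  rw [qLauFun_poly]
  exact aeval_mem_subalgebra E.toSubalgebra hj P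

include hj hg in
theorem qLauFun_mem' {f : ℍ → ℂ} (hf : f ∈ modAlg Γ) :
    qLauFun f ∈ E := by
  have hfin : Finite (SL(2, ℤ) ⧸ Γ) := Subgroup.finite_quotient_of_finiteIndex
  obtain ⟨n, D, c, hD, hD0, hc, h⟩ := exists_mul_eq_sum (gsep_mem_modAlg Γ)
    (fun β hβ => mem_of_tr_gsep hβ) hf
  have hg' : gsep Γ ∈ lauAlg := mem_lauAlg_of_mem (gsep_mem_modAlg Γ)
  have h1 := congrArg qLauFun h
  rw [qLauFun_mul (mem_lauAlg_of_mem_top hD) (mem_lauAlg_of_mem hf), qLauFun_sum] at h1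
  · have h2 : qLauFun f = (qLauFun D)⁻¹ * ∑ k : Fin n, qLauFun (c k * gsep Γ ^ (k : ℕ)) := by
      rw [← h1, inv_mul_cancel_left₀ (qLauFun_ne_zero (mem_lauAlg_of_mem_top hD) hD0)]
    rw [h2]
    refine mul_mem (inv_mem (qLauFun_mem_of_top' E hj hD)) (sum_mem fun k _ => ?_)
    rw [qLauFun_mul (mem_lauAlg_of_mem_top (hc k)) (pow_mem hg' _), qLauFun_pow hg']
    exact mul_mem (qLauFun_mem_of_top' E hj (hc k)) (pow_mem hg _)
  · intro k _
    exact mul_mem (mem_lauAlg_of_mem_top (hc k)) (pow_mem hg' _)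

include hj hg in
theorem mfq_le' : mfq Γ ≤ E := by
  intro x hx
  obtain ⟨a, b, ha, hb, hb0, h⟩ := exists_modAlg_of_mem_mfq hx
  have e5 : x = qLauFun a * (qLauFun b)⁻¹ := by
    rw [← h, mul_inv_cancel_right₀ (qLauFun_ne_zero (mem_lauAlg_of_mem hb) hb0)]
  rw [e5]
  exact mul_mem (qLauFun_mem' E hj hg ha) (inv_mem (qLauFun_mem' E hj hg hb))

end generic

lemma coeffEmb_jq_mem (Γ : Subgroup SL(2, ℤ)) [IsLevel Γ] : coeffEmb ℂ jq ∈ mfq Γ :=
  mem_mfq'.2 ⟨12, _, _, ((IsMF.of_levelOne Γ E₄).pow 3).cast (by norm_num), IsMF.discriminant Γ,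
    Fermat.Agent.H01.discriminant_fun_ne_zero, Fermat.Agent.H01.coeffEmb_jq_mul⟩

/-- `j` as an element of the function field. -/
def jC (Γ : Subgroup SL(2, ℤ)) [IsLevel Γ] : mfq Γ := ⟨coeffEmb ℂ jq, coeffEmb_jq_mem Γ⟩

/-- The separating function as an element of the function field. -/
def gC (Γ : Subgroup SL(2, ℤ)) [IsCong Γ] : mfq Γ :=
  ⟨qLauFun (gsep Γ), qLauFun_mem_mfq (gsep_mem_modAlg Γ)⟩

lemma coe_aeval_jC (Γ : Subgroup SL(2, ℤ)) [IsLevel Γ] (P : Polynomial ℂ) :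
    ((Polynomial.aeval (jC Γ) P : mfq Γ) : LaurentSeries ℂ) =
      Polynomial.aeval (coeffEmb ℂ jq) P :=
  (Polynomial.aeval_algHom_apply (mfq Γ).val (jC Γ) P).symm

lemma transcendental_jC (Γ : Subgroup SL(2, ℤ)) [IsLevel Γ] : Transcendental ℂ (jC Γ) := by
  apply Fermat.Agent.FF.transcendental_of_not_mem_range
  rintro ⟨c, hc⟩
  have h1 : qLauFun jfun = qLauFun (fun _ : ℍ => c) := by
    rw [qLauFun_jfun, qLauFun_const]
    exact (congrArg Subtype.val hc).symm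
  have h2 : jfun = fun _ : ℍ => c :=
    qLauFun_injective jfun_mem_lauAlg (good_const c).mem_lauAlg h1
  have h3 := congrFun h2 UpperHalfPlane.I
  have h4 := congrFun h2 UpperHalfPlane.ρ
  rw [Fermat.Agent.ES.jfun_I] at h3
  rw [Fermat.Agent.ES.jfun_rho] at h4
  rw [← h3] at h4
  norm_num at h4

section finite

variable (Γ : Subgroup SL(2, ℤ)) [IsCong Γ]

lemma coe_sum_aeval (n : ℕ) (P : Fin n → Polynomial ℂ) :
    ((∑ k : Fin n, Polynomial.aeval (jC Γ) (P k) * gC Γ ^ (k : ℕ) : mfq Γ) : LaurentSeries ℂ) =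
      qLauFun (∑ k : Fin n, Polynomial.aeval jfun (P k) * gsep Γ ^ (k : ℕ)) := by
  have hg' : gsep Γ ∈ lauAlg := mem_lauAlg_of_mem (gsep_mem_modAlg Γ)
  have hp : ∀ P : Polynomial ℂ, Polynomial.aeval jfun P ∈ lauAlg := fun P =>
    aeval_mem_subalgebra lauAlg jfun_mem_lauAlg P
  rw [qLauFun_sum _ fun k _ => mul_mem (hp _) (pow_mem hg' _)]
  have h1 : ((∑ k : Fin n, Polynomial.aeval (jC Γ) (P k) * gC Γ ^ (k : ℕ) : mfq Γ) :
      LaurentSeries ℂ) = ∑ k : Fin n, ((Polynomial.aeval (jC Γ) (P k) : mfq Γ) :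
        LaurentSeries ℂ) * ((gC Γ : mfq Γ) : LaurentSeries ℂ) ^ (k : ℕ) :=
    map_sum (mfq Γ).val _ _
  rw [h1]
  refine Finset.sum_congr rfl fun k _ => ?_
  rw [qLauFun_mul (hp _) (pow_mem hg' _), qLauFun_pow hg', qLauFun_poly, coe_aeval_jC]
  rfl

/-- Linear independence of `1, g, …, g^{μ-1}` over `ℂ(j)`, where `g` is the separating function. -/
theorem linearIndependent_pow_gC [Fintype (SL(2, ℤ) ⧸ Γ)] :
    LinearIndependent ℂ⟮jC Γ⟯
      (fun k : Fin (Fintype.card (SL(2, ℤ) ⧸ Γ)) => gC Γ ^ (k : ℕ)) := by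
  rw [← LinearIndependent.iff_fractionRing (Algebra.adjoin ℂ {jC Γ}) ℂ⟮jC Γ⟯]
  rw [Fintype.linearIndependent_iff]
  intro a ha
  have hP : ∀ k, ∃ P : Polynomial ℂ, Polynomial.aeval (jC Γ) P = (a k : mfq Γ) := by
    intro k
    exact (Algebra.adjoin_singleton_eq_range_aeval ℂ (jC Γ)).le (a k).2
  choose P hP using hP
  have h1 : ∑ k, Polynomial.aeval (jC Γ) (P k) * gC Γ ^ (k : ℕ) = 0 := by
    rw [← ha]
    refine Finset.sum_congr rfl fun k _ => ?_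
    rw [hP]
    rfl
  have h2 := coe_sum_aeval Γ _ P
  rw [h1] at h2
  have hp : ∀ P : Polynomial ℂ, Polynomial.aeval jfun P ∈ modAlg ⊤ := fun P =>
    aeval_mem_subalgebra (modAlg ⊤) (jfun_mem_modAlg ⊤) P
  have hg' : gsep Γ ∈ lauAlg := mem_lauAlg_of_mem (gsep_mem_modAlg Γ)
  have h3 : ∑ k, Polynomial.aeval jfun (P k) * gsep Γ ^ (k : ℕ) = 0 := by
    refine qLauFun_injective (sum_mem fun k _ => mul_mem (mem_lauAlg_of_mem_top (hp _))
      (pow_mem hg' _)) (zero_mem _) ?_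
    rw [← h2]
    exact (map_zero qLau).symm
  intro k
  have h4 := coeff_eq_zero_of_sum_eq_zero (gsep_mem_modAlg Γ)
    (fun β hβ => mem_of_tr_gsep hβ) (fun k => hp (P k)) h3 k
  apply Subtype.ext
  rw [← hP k]
  apply Subtype.ext
  rw [coe_aeval_jC, ← qLauFun_poly, h4]
  exact map_zero qLau

lemma isIntegral_gC : IsIntegral ℂ⟮jC Γ⟯ (gC Γ) := by
  have hfin : Finite (SL(2, ℤ) ⧸ Γ) := Subgroup.finite_quotient_of_finiteIndex
  have := Fintype.ofFinite (SL(2, ℤ) ⧸ Γ)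
  rw [← isAlgebraic_iff_isIntegral]
  set n := Fintype.card (SL(2, ℤ) ⧸ Γ) with hn
  obtain ⟨D, c, hD, hD0, hc, h⟩ := exists_mul_eq_sum_card (gsep_mem_modAlg Γ)
    (fun β hβ => mem_of_tr_gsep hβ) (pow_mem (gsep_mem_modAlg Γ) n)
  obtain ⟨Q, hQ⟩ := exists_poly_of_mem_top hD
  choose P hP using fun k => exists_poly_of_mem_top (hc k)
  have hg' : gsep Γ ∈ lauAlg := mem_lauAlg_of_mem (gsep_mem_modAlg Γ)
  have h1 : Polynomial.aeval (jC Γ) Q * gC Γ ^ n =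
      ∑ k : Fin n, Polynomial.aeval (jC Γ) (P k) * gC Γ ^ (k : ℕ) := by
    apply Subtype.ext
    rw [coe_sum_aeval]
    have h2 : ∑ k : Fin n, Polynomial.aeval jfun (P k) * gsep Γ ^ (k : ℕ) =
        D * gsep Γ ^ n := by
      rw [h]
      refine Finset.sum_congr rfl fun k _ => ?_
      rw [← hP]
    rw [h2, qLauFun_mul (mem_lauAlg_of_mem_top hD) (pow_mem hg' _), qLauFun_pow hg', hQ,
      qLauFun_poly, ← coe_aeval_jC Γ]
    rfl
  have hQ0 : Polynomial.aeval (jC Γ) Q ≠ 0 := by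
    intro h0
    apply hD0
    refine qLauFun_injective (mem_lauAlg_of_mem_top hD) (zero_mem _) ?_
    rw [hQ, qLauFun_poly, ← coe_aeval_jC Γ, h0]
    exact (map_zero qLau).symm
  have hmem : ∀ R : Polynomial ℂ, Polynomial.aeval (jC Γ) R ∈ ℂ⟮jC Γ⟯ := fun R =>
    aeval_mem_subalgebra (ℂ⟮jC Γ⟯).toSubalgebra (IntermediateField.mem_adjoin_simple_self ℂ _) R
  let Q' : ℂ⟮jC Γ⟯ := ⟨_, hmem Q⟩
  let P' : Fin n → ℂ⟮jC Γ⟯ := fun k => ⟨_, hmem (P k)⟩
  refine ⟨Polynomial.C Q' * Polynomial.X ^ n - ∑ k : Fin n, Polynomial.C (P' k) * Polynomial.X ^ (k : ℕ),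
    ?_, ?_⟩
  · intro h0
    have h3 := congrArg (fun R => Polynomial.coeff R n) h0
    simp only [Polynomial.coeff_sub, Polynomial.coeff_C_mul, Polynomial.coeff_X_pow, if_true,
      mul_one, Polynomial.finsetSum_coeff, Polynomial.coeff_zero] at h3
    rw [Finset.sum_eq_zero, sub_zero] at h3
    · exact hQ0 (congrArg Subtype.val h3)
    · intro k _
      rw [if_neg (by have := k.2; omega), mul_zero]
  · rw [map_sub, map_mul, map_pow, Polynomial.aeval_X, Polynomial.aeval_C, map_sum, sub_eq_zero]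
    refine h1.trans (Finset.sum_congr rfl fun k _ => ?_)
    rw [map_mul, map_pow, Polynomial.aeval_X, Polynomial.aeval_C]
    rfl

instance finiteDimensional_jC : FiniteDimensional ℂ⟮jC Γ⟯ (mfq Γ) := by
  have h1 : (ℂ⟮jC Γ⟯⟮gC Γ⟯ : IntermediateField ℂ⟮jC Γ⟯ (mfq Γ)) = ⊤ := by
    rw [eq_top_iff]
    rintro x -
    let E : IntermediateField ℂ (LaurentSeries ℂ) :=
      ((ℂ⟮jC Γ⟯⟮gC Γ⟯ : IntermediateField ℂ⟮jC Γ⟯ (mfq Γ)).restrictScalars ℂ).map (mfq Γ).val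
    have hj : coeffEmb ℂ jq ∈ E :=
      ⟨jC Γ, (ℂ⟮jC Γ⟯⟮gC Γ⟯ : IntermediateField ℂ⟮jC Γ⟯ (mfq Γ)).algebraMap_mem
        ⟨jC Γ, IntermediateField.mem_adjoin_simple_self ℂ _⟩, rfl⟩
    have hg : qLauFun (gsep Γ) ∈ E :=
      ⟨gC Γ, IntermediateField.mem_adjoin_simple_self ℂ⟮jC Γ⟯ _, rfl⟩
    obtain ⟨y, hy, hyx⟩ := mfq_le' E hj hg x.2
    have : y = x := Subtype.ext hyx
    rw [← this]
    exact hy
  have h2 : FiniteDimensional ℂ⟮jC Γ⟯ (ℂ⟮jC Γ⟯⟮gC Γ⟯ : IntermediateField ℂ⟮jC Γ⟯ (mfq Γ)) :=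
    IntermediateField.adjoin.finiteDimensional (isIntegral_gC Γ)
  rw [h1] at h2
  exact Module.Finite.equiv (IntermediateField.topEquiv (F := ℂ⟮jC Γ⟯) (E := mfq Γ)).toLinearEquiv

instance funField_FC : FunField ℂ (mfq Γ) := ⟨⟨jC Γ, transcendental_jC Γ, inferInstance⟩⟩

theorem card_le_finrank : Nat.card (SL(2, ℤ) ⧸ Γ) ≤ Module.finrank ℂ⟮jC Γ⟯ (mfq Γ) := by
  have hfin : Finite (SL(2, ℤ) ⧸ Γ) := Subgroup.finite_quotient_of_finiteIndex
  have := Fintype.ofFinite (SL(2, ℤ) ⧸ Γ)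
  rw [Nat.card_eq_fintype_card]
  simpa using (linearIndependent_pow_gC Γ).fintype_card_le_finrank

end finite

end Fermat.Agent.H02G
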