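import Fermat.Agent.H02G.P1

set_option autoImplicit false

/-!
# Every place of the field of modular functions for `Γ` is a point of `ℍ` or a cusp

-/

noncomputable section

open UpperHalfPlane hiding I
open ModularForm EisensteinSeries Filter Complex Topology Function CongruenceSubgroup
open ModularCurve AlgebraicCurve
open scoped MatrixGroups Manifold Real IntermediateField

namespace Fermat.Agent.H02G

local notation "𝕢" => Function.Periodic.qParam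
local notation "Δ" => ModularForm.discriminant
local notation "TT" => ModularGroup.T

open Fermat.Agent.FF (FunField)
open Fermat.Agent.H18 (jfun)
open Fermat.Agent.H01 (NiceAt cuspOrd ordAt qLf slash_mdiff slash_ne_zero)
open Fermat.Agent.H02 (exists_quotient_of_ord NiceAt.bdd_of_le exists_unique_pole)

variable {Γ : Subgroup SL(2, ℤ)} [IsCong Γ]

/-- The order functional of the cusp `σ∞`, in the parameter `q_N`. -/
def oCusp (Γ : Subgroup SL(2, ℤ)) [IsCong Γ] (σ : SL(2, ℤ)) : FnOrd Γ :=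
  ordCusp Γ σ (lev Γ : ℤ) (by exact_mod_cast lev_pos Γ) (conj_T_mem Γ σ)

lemma oCusp_o (σ : SL(2, ℤ)) (k : ℤ) (f : ℍ → ℂ) :
    (oCusp Γ σ).o k f = cuspOrd ((lev Γ : ℤ) : ℝ) (f ∣[k] σ) := rfl

lemma niceAt_slash {k : ℤ} {f : ℍ → ℂ} (hf : IsMF Γ k f) (σ : SL(2, ℤ)) :
    NiceAt ((lev Γ : ℤ) : ℝ) (f ∣[k] σ) := hf.niceAt (conj_T_mem Γ σ)

lemma hNR : (0 : ℝ) < ((lev Γ : ℤ) : ℝ) := by
  have := lev_pos Γ
  exact_mod_cast this

/-- A nonconstant quotient of modular forms has a pole somewhere. -/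
theorem exists_neg {x : LaurentSeries ℂ} {k : ℤ} {f g : ℍ → ℂ} (h : MFRep Γ x k f g)
    (hx : ∀ c : ℂ, x ≠ algebraMap ℂ (LaurentSeries ℂ) c) :
    (∃ τ : ℍ, (ordPt Γ τ).val x < 0) ∨ ∃ σ : SL(2, ℤ), (oCusp Γ σ).val x < 0 := by
  by_contra hcon
  push Not at hcon
  obtain ⟨h1, h2⟩ := hcon
  obtain ⟨u, hu, hfu⟩ := exists_quotient_of_ord h.hf.mdiff h.hg.mdiff h.hf0 h.hg0 (fun τ => by
    have := h1 τ
    rw [(ordPt Γ τ).val_eq h] at this
    change 0 ≤ (ordAt τ f : ℤ) - (ordAt τ g : ℤ) at this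
    omega)
  have hslash : ∀ σ : SL(2, ℤ), f ∣[k] σ = (u ∣[(0 : ℤ)] σ) * (g ∣[k] σ) := by
    intro σ
    rw [hfu, ← mul_slash_SL2, zero_add]
  have hinv : ∀ γ : Γ, u ∣[(0 : ℤ)] (γ : SL(2, ℤ)) = u := by
    intro γ
    have e1 := hslash γ
    rw [h.hf.slash_eq γ, h.hg.slash_eq γ, hfu] at e1
    have e2 : (u - u ∣[(0 : ℤ)] (γ : SL(2, ℤ))) * g = 0 := by
      rw [sub_mul, ← e1, sub_self]
    rcases (UpperHalfPlane.mul_eq_zero_iff (hu.sub (slash_mdiff 0 hu _)) h.hg.mdiff).mp e2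
      with e3 | e3
    · exact (sub_eq_zero.mp e3).symm
    · exact absurd e3 h.hg0
  have hbdd : ∀ σ : SL(2, ℤ), IsBoundedAtImInfty (u ∣[(0 : ℤ)] σ) := by
    intro σ
    refine NiceAt.bdd_of_le (hNR (Γ := Γ)) (niceAt_slash h.hf σ) (Fermat.Agent.H01.slash_ne_zero h.hf0 σ)
      (niceAt_slash h.hg σ) (Fermat.Agent.H01.slash_ne_zero h.hg0 σ) ?_ (hslash σ)
    have := h2 σ
    rw [(oCusp Γ σ).val_eq h, oCusp_o, oCusp_o] at this
    omega
  let F : ModularForm Γ 0 := mkMF 0 u hu (fun γ hγ => hinv ⟨γ, hγ⟩) hbdd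
  obtain ⟨c, hc⟩ := ModularForm.eq_const_of_weight_zero F
  have hc' : u = Function.const ℍ c := hc
  apply hx c
  have h3 : f = c • g := by
    rw [hfu, hc']
    rfl
  have h4 := h.eq
  rw [h3, h.hg.qLf_smul] at h4
  have h5 : qLf g ≠ 0 := fun h0 => h.hg0 (h.hg.qLf_eq_zero_iff.mp h0)
  rw [mul_right_cancel₀ h5 h4]
  exact (LaurentSeries.algebraMap_apply ℂ c).symm

/-- The embedding of the function field. -/
def embFC (Γ : Subgroup SL(2, ℤ)) [IsCong Γ] : EmbMF Γ ℂ (mfq Γ) where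
  σ := (mfq Γ).val.toRingHom
  mem x := x.2
  const c := ⟨c, LaurentSeries.algebraMap_apply ℂ c⟩

@[simp] lemma embFC_σ (x : mfq Γ) : (embFC Γ).σ x = (x : LaurentSeries ℂ) := rfl

/-- **Completeness**: every place comes from a point of `ℍ` or from a cusp. -/
theorem place_cases (v : Place ℂ (mfq Γ)) :
    (∃ (τ : ℍ) (e : ℤ), 0 < e ∧ ∀ x : mfq Γ, x ≠ 0 → (ordPt Γ τ).val x = e * v.ord x) ∨
    (∃ (σ : SL(2, ℤ)) (e : ℤ), 0 < e ∧ ∀ x : mfq Γ, x ≠ 0 → (oCusp Γ σ).val x = e * v.ord x) := by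
  obtain ⟨f, hfc, hf⟩ := exists_unique_pole v
  have hf0 : f ≠ 0 := by
    rintro rfl
    exact hfc ⟨0, map_zero _⟩
  have hf0' : (f : LaurentSeries ℂ) ≠ 0 := fun h => hf0 (Subtype.ext h)
  obtain ⟨k, A, B, h⟩ := MFRep.exists_of_mem f.2 hf0'
  have hkey : ∀ O : FnOrd Γ, O.val (f : LaurentSeries ℂ) < 0 →
      ∃ e : ℤ, 0 < e ∧ ∀ x : mfq Γ, x ≠ 0 → O.val x = e * v.ord x := by
    intro O hO
    rcases (O.toIntVal (embFC Γ)).eq_zero_or_exists_place with h0 | ⟨w, e, he, hw⟩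
    · exact absurd (h0 f hf0) (ne_of_lt hO)
    · have h1 : O.val (f : LaurentSeries ℂ) = e * w.ord f := hw f hf0
      have h2 : w.ord f < 0 := by
        by_contra hcon
        push Not at hcon
        have := mul_nonneg he.le hcon
        omega
      have h3 := hf w h2
      subst h3
      exact ⟨e, he, fun x hx => hw x hx⟩
  rcases exists_neg h (fun c hc => hfc ⟨c, Subtype.ext hc.symm⟩) with ⟨τ, hτ⟩ | ⟨σ, hσ⟩
  · obtain ⟨e, he, h1⟩ := hkey _ hτ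
    exact Or.inl ⟨τ, e, he, h1⟩
  · obtain ⟨e, he, h1⟩ := hkey _ hσ
    exact Or.inr ⟨σ, e, he, h1⟩

end Fermat.Agent.H02G
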