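import Fermat.Agent.H02G.P3

set_option autoImplicit false

/-!
# Computing the index of a valuation by counting

-/

noncomputable section

open UpperHalfPlane hiding I
open ModularForm EisensteinSeries Filter Complex Topology Function CongruenceSubgroup
open ModularCurve AlgebraicCurve
open scoped MatrixGroups Manifold Real IntermediateField

namespace Fermat.Agent.H02G

local notation "𝕢" => Function.Periodic.qParam
local notation "Δ" => ModularForm.discriminant
local notation "TT" => ModularGroup.T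

open Fermat.Agent.FF (FunField)
open Fermat.Agent.H18 (jfun)
open Fermat.Agent.H01 (NiceAt cuspOrd ordAt qLf slash_mdiff slash_ne_zero)
open Fermat.Agent.H02 (exists_quotient_of_ord NiceAt.bdd_of_le exists_unique_pole)

variable {Γ : Subgroup SL(2, ℤ)} [IsCong Γ]

/-- `v` is the place attached to the order functional `O`, with index `e`. -/
def IsPlaceOf (O : FnOrd Γ) (v : Place ℂ (mfq Γ)) (e : ℤ) : Prop :=
  0 < e ∧ ∀ x : mfq Γ, x ≠ 0 → O.val x = e * v.ord x

lemma exists_isPlaceOf (O : FnOrd Γ) {y : mfq Γ} (hy : y ≠ 0) (h : O.val y ≠ 0) :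
    ∃ v e, IsPlaceOf O v e := by
  rcases (O.toIntVal (embFC Γ)).eq_zero_or_exists_place with h0 | ⟨w, e, he, hw⟩
  · exact absurd (h0 y hy) h
  · exact ⟨w, e, he, fun x hx => hw x hx⟩

lemma exists_ord_one (v : Place ℂ (mfq Γ)) : ∃ x : mfq Γ, x ≠ 0 ∧ v.ord x = 1 := by
  obtain ⟨f, hf, h⟩ := Fermat.Agent.FF.exists_ord_eq {v} (fun _ => 1)
  exact ⟨f, hf, h v (Finset.mem_singleton_self v)⟩

lemma IsPlaceOf.unique {O : FnOrd Γ} {v v' : Place ℂ (mfq Γ)} {e e' : ℤ} (h : IsPlaceOf O v e)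
    (h' : IsPlaceOf O v' e') : v = v' ∧ e = e' := by
  have hv : v' = v := by
    obtain ⟨f, hfc, hf⟩ := exists_unique_pole v
    have hf0 : f ≠ 0 := by
      rintro rfl
      exact hfc ⟨0, map_zero _⟩
    have h1 : v.ord f < 0 := by
      by_contra hcon
      push Not at hcon
      apply hfc
      have := Fermat.Agent.FF.mem_range_of_forall_le (K := ℂ) (f := f) (fun w => by
        rw [w.adicValuation_le_one_iff]
        right
        by_contra hw
        push Not at hw
        have := hf w hw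
        subst this
        omega)
      exact this
    have h2 := h.2 f hf0
    rw [h'.2 f hf0] at h2
    apply hf
    have h3 : e' * v'.ord f < 0 := by
      rw [h2]
      exact mul_neg_of_pos_of_neg h.1 h1
    by_contra hcon
    push Not at hcon
    have := mul_nonneg h'.1.le hcon
    omega
  subst hv
  refine ⟨rfl, ?_⟩
  obtain ⟨x, hx, hx1⟩ := exists_ord_one v'
  have h2 := h.2 x hx
  rw [h'.2 x hx, hx1] at h2
  omega

lemma IsPlaceOf.congr {O O' : FnOrd Γ} {v : Place ℂ (mfq Γ)} {e : ℤ} (h : IsPlaceOf O v e)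
    (hO : ∀ x ∈ mfq Γ, O'.val x = O.val x) : IsPlaceOf O' v e :=
  ⟨h.1, fun x hx => by rw [hO _ x.2, h.2 x hx]⟩

/-- The counting argument. -/
theorem index_eq (O : SL(2, ℤ) → FnOrd Γ) (s : SL(2, ℤ))
    (hΓ : ∀ (g γ : SL(2, ℤ)), γ ∈ Γ → ∀ x ∈ mfq Γ, (O (g * γ)).val x = (O g).val x)
    (hs : ∀ g : SL(2, ℤ), ∀ x ∈ mfq Γ, (O (s * g)).val x = (O g).val x)
    (y : mfq Γ) (hyt : Transcendental ℂ y) (hyd : ℂ⟮y⟯ = ℂ⟮jC Γ⟯) (n : ℕ) (hn : 0 < n)
    (hy : ∀ g, (O g).val y = n)
    (hcompl : ∀ v : Place ℂ (mfq Γ), 0 < v.ord y → ∃ g e, IsPlaceOf (O g) v e)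
    (t : SL(2, ℤ) → ℕ)
    (ht : ∀ g : SL(2, ℤ), minimalPeriod (fun q : SL(2, ℤ) ⧸ Γ => s • q) (g : SL(2, ℤ) ⧸ Γ) *
      t g = n)
    (hdiv : ∀ g, ∀ x ∈ mfq Γ, x ≠ 0 → (t g : ℤ) ∣ (O g).val x)
    {g : SL(2, ℤ)} {v : Place ℂ (mfq Γ)} {e : ℤ} (hv : IsPlaceOf (O g) v e) : e = t g := by
  classical
  have hfin : Finite (SL(2, ℤ) ⧸ Γ) := Subgroup.finite_quotient_of_finiteIndex
  have := Fintype.ofFinite (SL(2, ℤ) ⧸ Γ)
  have hy0 : y ≠ 0 := by
    rintro rfl
    exact hyt (isAlgebraic_zero)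
  -- the functional attached to a coset
  have hcos : ∀ g : SL(2, ℤ), ∀ x ∈ mfq Γ,
      (O (g : SL(2, ℤ) ⧸ Γ).out).val x = (O g).val x := by
    intro g x hx
    obtain ⟨γ, hγ⟩ := QuotientGroup.mk_out_eq_mul (Γ) g
    rw [hγ]
    exact hΓ g γ γ.2 x hx
  have hex : ∀ q : SL(2, ℤ) ⧸ Γ, ∃ v e, IsPlaceOf (O q.out) v e := fun q =>
    exists_isPlaceOf (O q.out) hy0 (by rw [hy]; exact_mod_cast hn.ne')
  choose pl ee hpl using hex
  -- the place is constant on `s`-orbits
  have hpls : ∀ q : SL(2, ℤ) ⧸ Γ, pl (s • q) = pl q := by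
    intro q
    have h1 : s • q = ((s * q.out : SL(2, ℤ)) : SL(2, ℤ) ⧸ Γ) := by
      conv_lhs => rw [← QuotientGroup.out_eq' q]
      rfl
    have h2 : IsPlaceOf (O (s • q).out) (pl q) (ee q) := by
      refine (hpl q).congr fun x hx => ?_
      rw [h1, hcos _ x hx, hs _ x hx]
    exact ((hpl (s • q)).unique h2).1
  have hpliter : ∀ (i : ℕ) (q : SL(2, ℤ) ⧸ Γ),
      pl ((fun q : SL(2, ℤ) ⧸ Γ => s • q)^[i] q) = pl q := by
    intro i
    induction i with
    | zero => intro q; rfl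
    | succ i ih => intro q; rw [iterate_succ, comp_apply, ih, hpls]
  set m : SL(2, ℤ) ⧸ Γ → ℕ := fun q =>
    minimalPeriod (fun q : SL(2, ℤ) ⧸ Γ => s • q) q with hm
  have hmt : ∀ q : SL(2, ℤ) ⧸ Γ, m q * t q.out = n := by
    intro q
    have := ht q.out
    rwa [QuotientGroup.out_eq'] at this
  have hord : ∀ q, ee q * (pl q).ord y = n := by
    intro q
    rw [← (hpl q).2 y hy0, hy]
  have hordpos : ∀ q, 0 < (pl q).ord y := by
    intro q
    by_contra hcon
    push Not at hcon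
    have h1 := mul_nonpos_of_nonneg_of_nonpos (hpl q).1.le hcon
    rw [hord q] at h1
    have : (0 : ℤ) < n := by exact_mod_cast hn
    omega
  have htdvd : ∀ q, (t q.out : ℤ) ∣ ee q := by
    intro q
    obtain ⟨x, hx, hx1⟩ := exists_ord_one (pl q)
    have h1 := hdiv q.out x x.2 (fun h => hx (Subtype.ext h))
    rwa [(hpl q).2 x hx, hx1, mul_one] at h1
  have hle1 : ∀ q, (pl q).ord y ≤ m q := by
    intro q
    obtain ⟨r, hr⟩ := htdvd q
    have h1 := hord q
    have h2 : (m q : ℤ) * t q.out = n := by exact_mod_cast hmt q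
    have ht0 : (0 : ℤ) < t q.out := by
      have : 0 < t q.out := by
        rcases Nat.eq_zero_or_pos (t q.out) with h0 | h0
        · have h3 := hmt q
          rw [h0, mul_zero] at h3
          omega
        · exact h0
      exact_mod_cast this
    have he := (hpl q).1
    have hr0 : 0 < r := by
      rw [hr] at he
      exact (mul_pos_iff_of_pos_left ht0).mp he
    rw [hr] at h1
    have h3 : (m q : ℤ) = r * (pl q).ord y := by
      have h4 : (t q.out : ℤ) * (m q : ℤ) = t q.out * (r * (pl q).ord y) := by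
        rw [mul_comm, h2, ← h1]; ring
      exact mul_left_cancel₀ ht0.ne' h4
    rw [h3]
    have := hordpos q
    nlinarith
  have hle2 : ∀ q, m q ≤ (Finset.univ.filter fun q' => pl q' = pl q).card := by
    intro q
    have h1 := Function.iterate_injOn_Iio_minimalPeriod
      (f := fun q : SL(2, ℤ) ⧸ Γ => s • q) (x := q)
    have h2 : ((Finset.range (m q)).image
        (fun i => (fun q : SL(2, ℤ) ⧸ Γ => s • q)^[i] q)).card = m q := by
      rw [Finset.card_image_of_injOn, Finset.card_range]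
      intro i hi j hj hij
      exact h1 (by simpa using hi) (by simpa using hj) hij
    rw [← h2]
    refine Finset.card_le_card fun q' hq' => ?_
    obtain ⟨i, -, rfl⟩ := Finset.mem_image.mp hq'
    exact Finset.mem_filter.mpr ⟨Finset.mem_univ _, hpliter i q⟩
  -- the sum over all places
  have hfd : FiniteDimensional ℂ⟮y⟯ (mfq Γ) := by rw [hyd]; infer_instance
  obtain ⟨hS, hsum⟩ := Fermat.Agent.H18.sum_ord_pos y hyt
  have hrank : Module.finrank ℂ⟮y⟯ (mfq Γ) = Module.finrank ℂ⟮jC Γ⟯ (mfq Γ) := by rw [hyd]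
  have hcard : (Fintype.card (SL(2, ℤ) ⧸ Γ) : ℤ) ≤ ∑ w ∈ hS.toFinset, w.ord y := by
    rw [hsum, hrank]
    have := card_le_finrank Γ
    rw [Nat.card_eq_fintype_card] at this
    exact_mod_cast this
  have hmaps : ∀ q ∈ (Finset.univ : Finset (SL(2, ℤ) ⧸ Γ)), pl q ∈ hS.toFinset := by
    intro q _
    rw [Set.Finite.mem_toFinset]
    exact hordpos q
  have hfib := Finset.card_eq_sum_card_fiberwise hmaps
  rw [Finset.card_univ] at hfib
  have hsurj : ∀ w ∈ hS.toFinset, ∃ q, pl q = w := by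
    intro w hw
    rw [Set.Finite.mem_toFinset] at hw
    obtain ⟨g, e, hge⟩ := hcompl w hw
    refine ⟨(g : SL(2, ℤ) ⧸ Γ), ?_⟩
    have h2 : IsPlaceOf (O (g : SL(2, ℤ) ⧸ Γ).out) w e := hge.congr fun x hx => hcos g x hx
    exact ((hpl _).unique h2).1
  have hle3 : ∀ w ∈ hS.toFinset, w.ord y ≤ ((Finset.univ.filter fun q' => pl q' = w).card : ℤ) := by
    intro w hw
    obtain ⟨q, rfl⟩ := hsurj w hw
    have h1 := hle1 q
    have h2 : (m q : ℤ) ≤ ((Finset.univ.filter fun q' => pl q' = pl q).card : ℤ) := by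
      exact_mod_cast hle2 q
    exact h1.trans h2
  have heq : ∀ w ∈ hS.toFinset, w.ord y = ((Finset.univ.filter fun q' => pl q' = w).card : ℤ) := by
    have h1 : ∑ w ∈ hS.toFinset, ((Finset.univ.filter fun q' => pl q' = w).card : ℤ) =
        ∑ w ∈ hS.toFinset, w.ord y := by
      refine le_antisymm ?_ (Finset.sum_le_sum hle3)
      refine le_trans (le_of_eq ?_) hcard
      rw [hfib]
      push_cast
      rfl
    intro w hw
    exact ((Finset.sum_eq_sum_iff_of_le hle3).mp h1.symm w hw)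
  have hfinal : ∀ q, (pl q).ord y = m q := by
    intro q
    have h1 := heq (pl q) (hmaps q (Finset.mem_univ q))
    have h2 : (m q : ℤ) ≤ ((Finset.univ.filter fun q' => pl q' = pl q).card : ℤ) := by
      exact_mod_cast hle2 q
    exact le_antisymm (hle1 q) (h1 ▸ h2)
  -- conclusion
  set q : SL(2, ℤ) ⧸ Γ := (g : SL(2, ℤ) ⧸ Γ) with hq
  have h2 : IsPlaceOf (O q.out) v e := hv.congr fun x hx => hcos g x hx
  obtain ⟨hvq, heq'⟩ := (hpl q).unique h2
  have h3 := hord q
  rw [heq', hfinal q] at h3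
  have h4 : (m q : ℤ) * t g = n := by exact_mod_cast ht g
  have hm0 : (m q : ℤ) ≠ 0 := by
    intro h0
    rw [h0, zero_mul] at h4
    have : (0 : ℤ) < n := by exact_mod_cast hn
    omega
  refine mul_right_cancel₀ hm0 ?_
  rw [h3, ← h4]
  ring

end Fermat.Agent.H02G
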