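import Fermat.Agent.H02G.P4

set_option autoImplicit false

/-!
# The index of a point of `ℍ`

-/

noncomputable section

open UpperHalfPlane hiding I
open ModularForm EisensteinSeries Filter Complex Topology Function CongruenceSubgroup
open ModularCurve AlgebraicCurve
open scoped MatrixGroups Manifold Real IntermediateField

namespace Fermat.Agent.H02G

local notation "𝕢" => Function.Periodic.qParam
local notation "Δ" => ModularForm.discriminant
local notation "TT" => ModularGroup.T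

open Fermat.Agent.FF (FunField)
open Fermat.Agent.H18 (jfun)
open Fermat.Agent.H01 (NiceAt cuspOrd ordAt qLf slash_mdiff slash_ne_zero)
open Fermat.Agent.H02 (exists_quotient_of_ord NiceAt.bdd_of_le exists_unique_pole ordAt_slash
  jForm jForm_ne_zero EllData exists_ellData ordAt_eq_zero jForm_slash disc_slash jForm_eq_zero_iff
  NiceAt.cuspOrd_eq tendsto_phi tendsto_E4 phi qf qf_ne_zero discriminant_eq qParam_mul_pow
  dvd_ordAt_sub apply_eq_zero_of_ordAt_ne mdiff_jForm)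

variable {Γ : Subgroup SL(2, ℤ)} [IsCong Γ]

lemma FnOrd.val_zero (O : FnOrd Γ) : O.val 0 = 0 := by
  rw [FnOrd.val, dif_neg]
  rintro ⟨k, f, g, h⟩
  exact h.ne_zero rfl

lemma FnOrd.val_congr {O O' : FnOrd Γ}
    (h : ∀ (k : ℤ) (f : ℍ → ℂ), IsMF Γ k f → f ≠ 0 → O.o k f = O'.o k f) {x : LaurentSeries ℂ}
    (hx : x ∈ mfq Γ) : O.val x = O'.val x := by
  by_cases hx0 : x = 0
  · rw [hx0, FnOrd.val_zero, FnOrd.val_zero]
  obtain ⟨k, f, g, hr⟩ := MFRep.exists_of_mem hx hx0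
  rw [O.val_eq hr, O'.val_eq hr, h k f hr.hf hr.hf0, h k g hr.hg hr.hg0]

lemma ordPt_val_smul {γ : SL(2, ℤ)} (hγ : γ ∈ Γ) (τ : ℍ) {x : LaurentSeries ℂ}
    (hx : x ∈ mfq Γ) : (ordPt Γ (γ • τ)).val x = (ordPt Γ τ).val x := by
  refine FnOrd.val_congr (fun k f hf hf0 => ?_) hx
  change (ordAt (γ • τ) f : ℤ) = ordAt τ f
  rw [← ordAt_slash hf.mdiff hf0 k γ τ, hf.slash_eq ⟨γ, hγ⟩]

/-- `j - c` in the function field. -/
def yC (Γ : Subgroup SL(2, ℤ)) [IsCong Γ] (c : ℂ) : mfq Γ := jC Γ - algebraMap ℂ (mfq Γ) c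

lemma coe_yC (c : ℂ) : (yC Γ c : LaurentSeries ℂ) = coeffEmb ℂ jq - HahnSeries.C c := by
  show coeffEmb ℂ jq - algebraMap ℂ (LaurentSeries ℂ) c = _
  rw [LaurentSeries.algebraMap_apply]

lemma adjoin_yC (c : ℂ) : ℂ⟮yC Γ c⟯ = ℂ⟮jC Γ⟯ := by
  apply le_antisymm
  · rw [IntermediateField.adjoin_simple_le_iff]
    exact sub_mem (IntermediateField.mem_adjoin_simple_self ℂ _) (algebraMap_mem _ c)
  · rw [IntermediateField.adjoin_simple_le_iff]
    have h : jC Γ = yC Γ c + algebraMap ℂ (mfq Γ) c := by rw [yC, sub_add_cancel]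
    have h2 : yC Γ c + algebraMap ℂ (mfq Γ) c ∈ ℂ⟮yC Γ c⟯ :=
      add_mem (IntermediateField.mem_adjoin_simple_self ℂ _) (algebraMap_mem _ c)
    rwa [← h] at h2

lemma transcendental_yC (c : ℂ) : Transcendental ℂ (yC Γ c) := by
  intro h
  apply transcendental_jC Γ
  have h1 : jC Γ = yC Γ c + algebraMap ℂ (mfq Γ) c := by rw [yC, sub_add_cancel]
  rw [h1]
  exact h.add (isAlgebraic_algebraMap c)

lemma yC_ne_zero (c : ℂ) : yC Γ c ≠ 0 := by
  intro h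
  apply transcendental_yC (Γ := Γ) c
  rw [h]
  exact isAlgebraic_zero

variable (Γ) in
lemma isMF_jForm (c : ℂ) : IsMF Γ 12 (jForm c) :=
  (((IsMF.of_levelOne Γ E₄).pow 3).cast (by norm_num)).add ((IsMF.discriminant Γ).smul _)

lemma rep_yC (c : ℂ) : MFRep Γ (yC Γ c) 12 (jForm c) Δ where
  hf := isMF_jForm Γ c
  hg := IsMF.discriminant Γ
  hf0 := jForm_ne_zero c
  hg0 := Fermat.Agent.H01.discriminant_fun_ne_zero
  eq := by
    rw [coe_yC, sub_mul, Fermat.Agent.H01.coeffEmb_jq_mul, jForm,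
      (((IsMF.of_levelOne Γ E₄).pow 3).cast (by norm_num) :
        IsMF Γ 12 ((E₄ : ℍ → ℂ) ^ 3)).qLf_add ((IsMF.discriminant Γ).smul _),
      (IsMF.discriminant Γ).qLf_smul, map_neg]
    ring

lemma val_yC (τ : ℍ) (c : ℂ) : (ordPt Γ τ).val (yC Γ c) = ordAt τ (jForm c) := by
  rw [(ordPt Γ τ).val_eq (rep_yC c)]
  change (ordAt τ (jForm c) : ℤ) - (ordAt τ Δ : ℤ) = _
  rw [ordAt_eq_zero (IsMF.discriminant Γ).mdiff (discriminant_ne_zero τ)]
  simp

/-! ### Level one forms at cusps -/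

lemma cuspOrd_jForm (c : ℂ) : cuspOrd ((lev Γ : ℤ) : ℝ) (jForm c) = 0 := by
  have h1 : NiceAt ((lev Γ : ℤ) : ℝ) (jForm c) := by
    have := niceAt_slash (isMF_jForm Γ c) (1 : SL(2, ℤ))
    rwa [SlashAction.slash_one] at this
  refine NiceAt.cuspOrd_eq (hNR (Γ := Γ)) h1 (c := 1) one_ne_zero ?_
  have h2 : Tendsto (jForm c) atImInfty (𝓝 1) := by
    have h3 := (tendsto_E4.pow 3).add (Fermat.Agent.ES.tendsto_disc.const_smul (-c))
    have h4 : Tendsto (jForm c) atImInfty (𝓝 (1 ^ 3 + (-c) • 0)) := h3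
    simpa using h4
  simpa using h2

lemma cuspOrd_disc : cuspOrd ((lev Γ : ℤ) : ℝ) Δ = lev Γ := by
  have h1 : NiceAt ((lev Γ : ℤ) : ℝ) Δ := by
    have := niceAt_slash (IsMF.discriminant Γ) (1 : SL(2, ℤ))
    rwa [SlashAction.slash_one] at this
  refine NiceAt.cuspOrd_eq (hNR (Γ := Γ)) h1 (c := 1) one_ne_zero ?_
  have h2 : Tendsto (fun z => phi z ^ 24) atImInfty (𝓝 1) := by
    have h4 := tendsto_phi.pow 24
    rw [one_pow] at h4
    exact h4
  refine h2.congr fun z => ?_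
  have h3 : 𝕢 ((lev Γ : ℤ) : ℝ) z ^ (lev Γ) = qf z := by
    have := qParam_mul_pow (w := 1) one_pos (lev_pos Γ) z
    rw [mul_one] at this
    push_cast
    exact this
  rw [h3, discriminant_eq]
  have := qf_ne_zero z
  simp only [Pi.mul_apply, Pi.pow_apply]
  field_simp

lemma val_cusp_yC (σ : SL(2, ℤ)) (c : ℂ) : (oCusp Γ σ).val (yC Γ c) = -(lev Γ : ℤ) := by
  rw [(oCusp Γ σ).val_eq (rep_yC c), oCusp_o, oCusp_o, jForm_slash, disc_slash, cuspOrd_jForm,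
    cuspOrd_disc]
  simp

lemma smul_coset_eq_iff {s g : SL(2, ℤ)} :
    s • (g : SL(2, ℤ) ⧸ Γ) = (g : SL(2, ℤ) ⧸ Γ) ↔ g⁻¹ * s * g ∈ Γ := by
  rw [MulAction.Quotient.smul_coe, smul_eq_mul, eq_comm, QuotientGroup.eq, ← mul_assoc]

lemma neg_one_smul_coset (q : SL(2, ℤ) ⧸ Γ) : (-1 : SL(2, ℤ)) • q = q := by
  induction q using QuotientGroup.induction_on with
  | H g =>
    rw [smul_coset_eq_iff]
    have : g⁻¹ * -1 * g = -1 := by simp
    rw [this]
    exact IsCong.neg_mem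

lemma iterate_smul_coset (s : SL(2, ℤ)) (n : ℕ) (q : SL(2, ℤ) ⧸ Γ) :
    (fun q : SL(2, ℤ) ⧸ Γ => s • q)^[n] q = s ^ n • q := by
  induction n with
  | zero => simp
  | succ n ih => rw [iterate_succ', comp_apply, ih, pow_succ', mul_smul]

open Classical in
/-- The index of a point. -/
theorem ellData_index_eq {τ₀ : ℍ} {s : SL(2, ℤ)} {n : ℕ} (hE : EllData τ₀ s n) {g : SL(2, ℤ)}
    {v : Place ℂ (mfq Γ)} {e : ℤ} (hv : IsPlaceOf (ordPt Γ (g⁻¹ • τ₀)) v e) :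
    e = ((if g⁻¹ * s * g ∈ Γ then n else 1 : ℕ) : ℤ) := by
  have hn : 0 < n := by
    rcases hE.alt with ⟨h, -⟩ | ⟨h, -⟩
    · exact h.pos
    · omega
  have hval : ∀ g : SL(2, ℤ), (ordPt Γ (g⁻¹ • τ₀)).val (yC Γ (jfun τ₀)) = n := by
    intro g
    rw [val_yC, ← ordAt_slash (mdiff_jForm _) (jForm_ne_zero _) 12, jForm_slash, hE.ord]
  refine index_eq (Γ := Γ) (fun g => ordPt Γ (g⁻¹ • τ₀)) s ?_ ?_
    (yC Γ (jfun τ₀)) (transcendental_yC _) (adjoin_yC _) n hn hval ?_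
    (fun g => if g⁻¹ * s * g ∈ Γ then n else 1) ?_ ?_ hv
  · intro g γ hγ x hx
    rw [mul_inv_rev, mul_smul]
    exact ordPt_val_smul (inv_mem hγ) _ hx
  · intro g x hx
    have : s⁻¹ • τ₀ = τ₀ := by
      rw [inv_smul_eq_iff, hE.fix]
    rw [mul_inv_rev, mul_smul, this]
  · intro w hw
    rcases place_cases w with ⟨τ, e', he', hτ⟩ | ⟨σ, e', he', hσ⟩
    · have h1 := hτ _ (yC_ne_zero (jfun τ₀))
      rw [val_yC] at h1
      have h2 := mul_pos he' hw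
      rw [← h1] at h2
      have h3 : jForm (jfun τ₀) τ = 0 := apply_eq_zero_of_ordAt_ne (mdiff_jForm _) (by
        intro h0
        rw [h0] at h2
        simp at h2)
      rw [jForm_eq_zero_iff] at h3
      obtain ⟨g', hg'⟩ := Fermat.Agent.ES.jfun_injective τ₀ τ h3.symm
      refine ⟨g'⁻¹, e', ?_⟩
      rw [inv_inv, ← hg']
      exact ⟨he', hτ⟩
    · exfalso
      have h1 := hσ _ (yC_ne_zero (jfun τ₀))
      rw [val_cusp_yC] at h1
      have h2 := mul_pos he' hw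
      rw [← h1] at h2
      have := lev_pos Γ
      omega
  · intro g
    split_ifs with h
    · have h1 : minimalPeriod (fun q : SL(2, ℤ) ⧸ Γ => s • q)
          (g : SL(2, ℤ) ⧸ Γ) = 1 :=
        Function.minimalPeriod_eq_one_iff_isFixedPt.mpr (smul_coset_eq_iff.mpr h)
      rw [h1, one_mul]
    · rcases hE.alt with ⟨hp, hsn⟩ | ⟨-, h1⟩
      · have : Fact n.Prime := ⟨hp⟩
        rw [mul_one]
        refine Function.minimalPeriod_eq_prime ?_ ?_
        · change (fun q : SL(2, ℤ) ⧸ Γ => s • q)^[n] _ = _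
          rw [iterate_smul_coset, hsn, neg_one_smul_coset]
        · exact fun h' => h (smul_coset_eq_iff.mp h')
      · exfalso
        apply h
        rw [h1, mul_one, inv_mul_cancel]
        exact one_mem _
  · intro g x hx hx0
    split_ifs with h
    · obtain ⟨k, f₁, f₂, hr⟩ := MFRep.exists_of_mem hx hx0
      rw [(ordPt Γ _).val_eq hr]
      exact dvd_ordAt_sub hE.fix hE.prim hr.hf.mdiff hr.hg.mdiff hr.hf0 hr.hg0
        (hr.hf.slash_eq ⟨_, h⟩) (hr.hg.slash_eq ⟨_, h⟩)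
    · simp

/-- **Divisibility of orders at points by the index.** -/
theorem IsPlaceOf.dvd_ordAt {τ : ℍ} {v : Place ℂ (mfq Γ)} {e : ℤ}
    (hv : IsPlaceOf (ordPt Γ τ) v e) {k : ℤ} {f₁ f₂ : ℍ → ℂ} (h1 : MDiff f₁)
    (h2 : MDiff f₂) (h10 : f₁ ≠ 0) (h20 : f₂ ≠ 0)
    (e1 : ∀ γ : SL(2, ℤ), γ ∈ Γ → γ • τ = τ → f₁ ∣[k] γ = f₁)
    (e2 : ∀ γ : SL(2, ℤ), γ ∈ Γ → γ • τ = τ → f₂ ∣[k] γ = f₂) :
    e ∣ (ordAt τ f₁ : ℤ) - ordAt τ f₂ := by
  obtain ⟨τ₀, g, s, n, hE, rfl⟩ := exists_ellData τ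
  rw [ellData_index_eq hE hv]
  split_ifs with h
  · have hfix : (g⁻¹ * s * g : SL(2, ℤ)) • (g⁻¹ • τ₀) = g⁻¹ • τ₀ := by
      rw [mul_smul, mul_smul, smul_inv_smul, hE.fix]
    exact dvd_ordAt_sub hE.fix hE.prim h1 h2 h10 h20 (e1 _ h hfix) (e2 _ h hfix)
  · simp

end Fermat.Agent.H02G
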