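import Fermat.Agent.H02G.P8

set_option autoImplicit false

/-!
# Congruence subgroups not containing `-1`

`S_m(E) = Hom_par(Γ, μ_m)` for `E` the field of modular functions for `Γ`, where `Γ` is any
congruence subgroup containing `T`.
-/

noncomputable section

open UpperHalfPlane hiding I
open ModularForm EisensteinSeries Filter Complex Topology Function CongruenceSubgroup
open ModularCurve AlgebraicCurve
open scoped MatrixGroups Manifold Real IntermediateField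

namespace Fermat.Agent.H02G

open Fermat.Agent.FF (FunField)
open Fermat.Agent.H01 (qLf)

/-- The subgroup `±Γ`. -/
def pm (Γ : Subgroup SL(2, ℤ)) : Subgroup SL(2, ℤ) where
  carrier := {γ | γ ∈ Γ ∨ -γ ∈ Γ}
  mul_mem' := by
    rintro a b (ha | ha) (hb | hb)
    · exact Or.inl (mul_mem ha hb)
    · right
      have := mul_mem ha hb
      rwa [mul_neg] at this
    · right
      have := mul_mem ha hb
      rwa [neg_mul] at this
    · left
      have := mul_mem ha hb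
      rwa [neg_mul_neg] at this
  one_mem' := Or.inl (one_mem _)
  inv_mem' := by
    rintro a (ha | ha)
    · exact Or.inl (inv_mem ha)
    · right
      have h := inv_mem ha
      have h1 : (-a)⁻¹ = -a⁻¹ := by
        apply inv_eq_of_mul_eq_one_right
        rw [neg_mul_neg, mul_inv_cancel]
      rwa [h1] at h

variable {Γ : Subgroup SL(2, ℤ)}

lemma mem_pm {γ : SL(2, ℤ)} : γ ∈ pm Γ ↔ γ ∈ Γ ∨ -γ ∈ Γ := Iff.rfl

lemma le_pm : Γ ≤ pm Γ := fun _ h => Or.inl h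

lemma neg_mem_pm {γ : SL(2, ℤ)} (h : γ ∈ pm Γ) : -γ ∈ pm Γ := by
  rcases h with h | h
  · right
    rwa [neg_neg]
  · exact Or.inl h

instance [IsLevel Γ] : IsCong (pm Γ) where
  exists_level := ⟨lev Γ, NeZero.ne _, (gamma_lev_le Γ).trans le_pm⟩
  T_mem := le_pm IsLevel.T_mem
  neg_mem := neg_mem_pm (one_mem _)

variable [IsLevel Γ]

lemma slash_neg_even {k : ℤ} (hk : Even k) (f : ℍ → ℂ) (γ : SL(2, ℤ)) :
    f ∣[k] (-γ) = f ∣[k] γ := by
  ext z
  have h1 : (-γ) • z = γ • z := by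
    ext
    rw [UpperHalfPlane.coe_specialLinearGroup_apply, UpperHalfPlane.coe_specialLinearGroup_apply]
    simp only [Matrix.SpecialLinearGroup.coe_neg, Matrix.neg_apply, algebraMap_int_eq, eq_intCast,
      Int.cast_neg, Complex.ofReal_neg, Complex.ofReal_intCast]
    rw [show (-(γ 0 0 : ℂ) * z + -(γ 0 1 : ℂ)) = -((γ 0 0 : ℂ) * z + (γ 0 1 : ℂ)) by ring,
      show (-(γ 1 0 : ℂ) * z + -(γ 1 1 : ℂ)) = -((γ 1 0 : ℂ) * z + (γ 1 1 : ℂ)) by ring,
      neg_div_neg_eq]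
  have h2 : denom ((-γ : SL(2, ℤ)) : GL (Fin 2) ℝ) z = -denom (γ : GL (Fin 2) ℝ) z := by
    rw [ModularGroup.denom_apply, ModularGroup.denom_apply]
    simp only [Matrix.SpecialLinearGroup.coe_neg, Matrix.neg_apply, Int.cast_neg]
    ring
  rw [SL_slash_apply, SL_slash_apply, h1, h2, (hk.neg).neg_zpow]

/-- Forms of even weight on `Γ` are forms on `±Γ`. -/
lemma IsMF.pm {k : ℤ} (hk : Even k) {f : ℍ → ℂ} (hf : IsMF Γ k f) : IsMF (pm Γ) k f := by
  refine IsMF.mk' hf.mdiff (fun γ hγ => ?_) fun σ => hf.bdd σ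
  rcases hγ with h | h
  · exact hf.slash_eq ⟨γ, h⟩
  · rw [← slash_neg_even hk]
    exact hf.slash_eq ⟨-γ, h⟩

variable (Γ) in
theorem mfq_pm : mfq (pm Γ) = mfq Γ := by
  refine le_antisymm (mfq_mono le_pm) fun x hx => ?_
  obtain ⟨k, f, g, hf, hg, hg0, he⟩ := mem_mfq'.mp hx
  refine mem_mfq'.mpr ⟨k + k, f * g, g * g, (hf.mul hg).pm (Even.add_self k),
    (hg.mul hg).pm (Even.add_self k), mf_mul_ne_zero hg hg hg0 hg0, ?_⟩
  rw [hf.qLf_mul hg, hg.qLf_mul hg, ← he]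
  ring

instance : FunField ℂ (mfq Γ) := by
  rw [← mfq_pm]
  infer_instance

lemma HasRootChar.of_pm {m : ℕ} {x : LaurentSeries ℂ} {ψ : ↥(pm Γ) →* ℂˣ}
    (h : HasRootChar (pm Γ) m x ψ) :
    HasRootChar Γ m x (ψ.comp (Subgroup.inclusion (le_pm (Γ := Γ)))) := by
  obtain ⟨k, f, g, H, h⟩ := hasRootChar_iff.1 h
  exact hasRootChar_iff.2 ⟨k, f, g, H, ⟨h.rep.hf.mono le_pm, h.rep.hg.mono le_pm, h.rep.hf0,
    h.rep.hg0, h.rep.eq⟩, h.mdiff, h.pow_eq, fun γ => h.slash ⟨γ, le_pm γ.2⟩⟩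

/-- The conditions satisfied by the character of a function with divisor divisible by `m`. -/
structure IsPar (ψ : ↥Γ →* ℂˣ) : Prop where
  ell : ∀ (γ : ↥Γ) (τ : ℍ), (γ : SL(2, ℤ)) • τ = τ → ψ γ = 1
  par : ∀ γ : ↥Γ, ((γ : SL(2, ℤ)) 0 0 + (γ : SL(2, ℤ)) 1 1) ^ 2 = 4 → ψ γ = 1

section field

variable {E : IntermediateField ℂ (LaurentSeries ℂ)} (hE : E = mfq Γ) {m : ℕ} (hm : m ≠ 0)

/-- The embedding data for a field equal to `mfq Γ`. -/
def embE (hE : E = mfq Γ) : EmbMF Γ ℂ E where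
  σ := E.val.toRingHom
  mem x := hE ▸ x.2
  const c := ⟨c, LaurentSeries.algebraMap_apply ℂ c⟩

/-- The embedding data for a field equal to `mfq Γ`, at level `±Γ`. -/
def embEpm (hE : E = mfq Γ) : EmbMF (pm Γ) ℂ E := embE (Γ := pm Γ) (hE.trans (mfq_pm Γ).symm)

include hE hm

theorem exists_hasRootChar_of_dvd {x : E} (hx : x ≠ 0)
    (hd : ∀ v : Place ℂ E, (m : ℤ) ∣ v.ord x) :
    ∃ ψ : ↥Γ →* ℂˣ, HasRootChar Γ m x ψ ∧ IsPar ψ := by
  have hx' : (x : LaurentSeries ℂ) ≠ 0 := fun h => hx (Subtype.ext h)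
  have hs : StrongDvd (pm Γ) m (x : LaurentSeries ℂ) := (embEpm hE).strongDvd hx hd
  obtain ⟨ψ, hψ⟩ := exists_hasRootChar (Γ := pm Γ) hm (x := (x : LaurentSeries ℂ))
    (by rw [mfq_pm, ← hE]; exact x.2) hx' (fun τ => hs.dvd _)
  refine ⟨_, hψ.of_pm, fun γ τ h => ?_, fun γ h => ?_⟩
  · exact hψ.eq_one_of_fix hm hs ⟨γ, le_pm γ.2⟩ h
  · exact hψ.eq_one_of_trace_sq hm hs ⟨γ, le_pm γ.2⟩ h

theorem isPar_of_dvd {x : E} (hx : x ≠ 0) (hd : ∀ v : Place ℂ E, (m : ℤ) ∣ v.ord x)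
    {ψ : ↥Γ →* ℂˣ} (h : HasRootChar Γ m x ψ) : IsPar ψ := by
  obtain ⟨ψ', h', hp⟩ := exists_hasRootChar_of_dvd hE hm hx hd
  rwa [h.unique hm h']

/-- **Surjectivity** for an arbitrary congruence subgroup containing `T`. -/
theorem exists_of_isPar {ψ : ↥Γ →* ℂˣ} (hψ : IsPar ψ) (hψm : ∀ γ, ψ γ ^ m = 1) :
    ∃ x : E, x ≠ 0 ∧ HasRootChar Γ m x ψ ∧ ∀ v : Place ℂ E, (m : ℤ) ∣ v.ord x := by
  classical
  -- extension of the character to `±Γ`
  have hneg : ∀ a b : ↥Γ, (a : SL(2, ℤ)) = -b → ψ a = ψ b := by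
    intro a b hab
    have h1 : ψ (a * b⁻¹) = 1 := by
      refine hψ.par _ ?_
      rw [Subgroup.coe_mul, Subgroup.coe_inv, hab]
      simp
    rwa [map_mul, map_inv, mul_inv_eq_one] at h1
  let f : ↥(pm Γ) → ℂˣ := fun γ =>
    if h : (γ : SL(2, ℤ)) ∈ Γ then ψ ⟨γ, h⟩ else
      if h' : -(γ : SL(2, ℤ)) ∈ Γ then ψ ⟨-γ, h'⟩ else 1
  have hf : ∀ (γ : ↥(pm Γ)) (a : ↥Γ), ((γ : SL(2, ℤ)) = a ∨ (γ : SL(2, ℤ)) = -a) →
      f γ = ψ a := by
    rintro ⟨γ, hγ⟩ ⟨a, ha⟩ (h | h)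
    · change γ = a at h
      subst h
      simp only [f]
      rw [dif_pos ha]
    · change γ = -a at h
      subst h
      simp only [f]
      split_ifs with h1 h2
      · exact hneg _ _ rfl
      · exact congrArg ψ (Subtype.ext (neg_neg a))
      · rw [neg_neg] at h2
        exact absurd ha h2
  have hex : ∀ γ : ↥(pm Γ), ∃ a : ↥Γ, (γ : SL(2, ℤ)) = a ∨ (γ : SL(2, ℤ)) = -a := by
    rintro ⟨γ, h | h⟩
    · exact ⟨⟨γ, h⟩, Or.inl rfl⟩
    · exact ⟨⟨-γ, h⟩, Or.inr (neg_neg γ).symm⟩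
  let φ : ↥(pm Γ) →* ℂˣ :=
    { toFun := f
      map_one' := by rw [hf 1 1 (Or.inl rfl), map_one]
      map_mul' := by
        intro x y
        obtain ⟨a, ha⟩ := hex x
        obtain ⟨b, hb⟩ := hex y
        rw [hf x a ha, hf y b hb, ← map_mul]
        apply hf
        rw [Subgroup.coe_mul, Subgroup.coe_mul]
        rcases ha with ha | ha <;> rcases hb with hb | hb <;> rw [ha, hb]
        · exact Or.inl rfl
        · exact Or.inr (mul_neg _ _)
        · exact Or.inr (neg_mul _ _)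
        · exact Or.inl (neg_mul_neg _ _) }
  have hφ : ∀ (γ : ↥(pm Γ)) (a : ↥Γ), ((γ : SL(2, ℤ)) = a ∨ (γ : SL(2, ℤ)) = -a) →
      φ γ = ψ a := hf
  have hφm : ∀ γ, φ γ ^ m = 1 := by
    intro γ
    obtain ⟨a, ha⟩ := hex γ
    rw [hφ γ a ha, hψm]
  have hell : ∀ (γ : ↥(pm Γ)) (τ : ℍ), (γ : SL(2, ℤ)) • τ = τ → φ γ = 1 := by
    intro γ τ h
    obtain ⟨a, ha⟩ := hex γ
    rw [hφ γ a ha]
    refine hψ.ell a τ ?_
    rcases ha with ha | ha
    · rw [← ha, h]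
    · have h1 : (a : SL(2, ℤ)) = -γ := by rw [ha, neg_neg]
      rw [h1]
      have h2 : ∀ (δ : SL(2, ℤ)) (z : ℍ), (-δ) • z = δ • z := fun δ z =>
        ModularGroup.SL_neg_smul δ z
      rw [h2, h]
  have hpar : ∀ (γ : ↥(pm Γ)) (σ : SL(2, ℤ)) (w : ℤ),
      (γ : SL(2, ℤ)) = σ * ModularGroup.T ^ w * σ⁻¹ → φ γ = 1 := by
    intro γ σ w h
    obtain ⟨a, ha⟩ := hex γ
    rw [hφ γ a ha]
    refine hψ.par a ?_
    have htr : ((γ : SL(2, ℤ)) 0 0 + (γ : SL(2, ℤ)) 1 1) = 2 := by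
      have h1 : Matrix.trace ((σ * ModularGroup.T ^ w * σ⁻¹ : SL(2, ℤ)) : Matrix (Fin 2) (Fin 2) ℤ)
          = 2 := by
        rw [Matrix.SpecialLinearGroup.coe_mul, Matrix.SpecialLinearGroup.coe_mul,
          Matrix.trace_mul_cycle, ← Matrix.SpecialLinearGroup.coe_mul, inv_mul_cancel,
          Matrix.SpecialLinearGroup.coe_one, one_mul, ModularGroup.coe_T_zpow]
        simp [Matrix.trace_fin_two]
      rw [← h, Matrix.trace_fin_two] at h1
      exact h1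
    rcases ha with ha | ha
    · rw [← ha, htr]
      norm_num
    · rw [ha] at htr
      simp only [Matrix.SpecialLinearGroup.coe_neg, Matrix.neg_apply] at htr
      have h2 : ((a : SL(2, ℤ)) 0 0 + (a : SL(2, ℤ)) 1 1) = -2 := by
        linarith
      rw [h2]
      norm_num
  obtain ⟨x, hx, hr, hd⟩ := exists_hasRootChar_surj (Γ := pm Γ) hm φ hφm hell hpar
  have hE' : E = mfq (pm Γ) := hE.trans (mfq_pm Γ).symm
  subst hE'
  refine ⟨x, hx, ?_, hd⟩
  have h1 := hr.of_pm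
  have h2 : φ.comp (Subgroup.inclusion (le_pm (Γ := Γ))) = ψ := by
    ext a
    have := hφ (Subgroup.inclusion (le_pm (Γ := Γ)) a) a (Or.inl rfl)
    rw [MonoidHom.comp_apply, this]
  rwa [h2] at h1

/-- Conversely, a function with a parabolic root character has divisor divisible by `m`. -/
theorem dvd_of_isPar {x : E} {ψ : ↥Γ →* ℂˣ} (h : HasRootChar Γ m x ψ) (hψ : IsPar ψ)
    (v : Place ℂ E) : (m : ℤ) ∣ v.ord x := by
  have hψm := fun γ => h.pow_eq_one hm γ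
  obtain ⟨y, hy0, hy, hd⟩ := exists_of_isPar hE hm hψ hψm
  obtain ⟨z, hz, hz0, he⟩ := h.exists_eq_mul_pow hm hy
  have hz' : z ∈ E := hE ▸ hz
  have h1 : x = y * (⟨z, hz'⟩ : E) ^ m := Subtype.ext he
  have hz0' : (⟨z, hz'⟩ : E) ≠ 0 := fun h => hz0 (congrArg Subtype.val h)
  rw [h1, v.ord_mul hy0 (pow_ne_zero _ hz0'), ← zpow_natCast, v.ord_zpow]
  exact dvd_add (hd v) (dvd_mul_right _ _)

/-- A function with trivial root character is an `m`-th power. -/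
theorem exists_pow_eq_of_trivial {x : E} (h : HasRootChar Γ m x 1) : ∃ y : E, y ^ m = x := by
  obtain ⟨y, hy, he⟩ := h.exists_pow_eq hm
  exact ⟨⟨y, hE ▸ hy⟩, Subtype.ext he⟩

end field

end Fermat.Agent.H02G
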